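import Mathlib

set_option autoImplicit false

open Finset

namespace Fermat.Agent.ClassL

/-- The tent function. -/
noncomputable def tent (t : ℝ) : ℝ := max 0 (1 - |t|)

lemma tent_nonneg (t : ℝ) : 0 ≤ tent t := le_max_left _ _

lemma tent_le_one (t : ℝ) : tent t ≤ 1 :=
  max_le zero_le_one (by linarith [abs_nonneg t])

lemma tent_eq_zero {t : ℝ} (h : 1 ≤ |t|) : tent t = 0 :=
  max_eq_left (by linarith)

lemma abs_lt_one_of_tent_ne_zero {t : ℝ} (h : tent t ≠ 0) : |t| < 1 := by
  by_contra h'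
  exact h (tent_eq_zero (not_lt.mp h'))

lemma tent_lipschitz (a b : ℝ) : |tent a - tent b| ≤ |a - b| := by
  unfold tent
  rw [max_comm 0, max_comm 0]
  refine (abs_max_sub_max_le_abs _ _ _).trans ?_
  rw [show (1 - |a|) - (1 - |b|) = -(|a| - |b|) by ring, abs_neg]
  exact abs_abs_sub_abs_le a b

/-- The two integers `k` for which `tent (y + k)` may be nonzero. -/
noncomputable def tentSupp (y : ℝ) : Finset ℤ := {-⌊y⌋, -⌊y⌋ - 1}

lemma tent_add_int_eq_zero (y : ℝ) {k : ℤ} (hk : k ∉ tentSupp y) : tent (y + k) = 0 := by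
  apply tent_eq_zero
  simp only [tentSupp, mem_insert, mem_singleton, not_or] at hk
  obtain ⟨h1, h2⟩ := hk
  have hf := Int.floor_add_fract y
  have hf0 := Int.fract_nonneg y
  have hf1 := Int.fract_lt_one y
  have : k + ⌊y⌋ ≤ -2 ∨ 1 ≤ k + ⌊y⌋ := by omega
  rcases this with h | h
  · rw [le_abs]; right
    have : ((k : ℝ) + ⌊y⌋) ≤ -2 := by exact_mod_cast h
    linarith
  · rw [le_abs]; left
    have : (1 : ℝ) ≤ ((k : ℝ) + ⌊y⌋) := by exact_mod_cast h
    linarith

lemma sum_tentSupp (y : ℝ) : ∑ k ∈ tentSupp y, tent (y + k) = 1 := by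
  have hne : (-⌊y⌋ : ℤ) ≠ -⌊y⌋ - 1 := by omega
  rw [tentSupp, sum_pair hne]
  have hf := Int.floor_add_fract y
  have hf0 := Int.fract_nonneg y
  have hf1 := Int.fract_lt_one y
  have h1 : y + ((-⌊y⌋ : ℤ) : ℝ) = Int.fract y := by push_cast; linarith
  have h2 : y + ((-⌊y⌋ - 1 : ℤ) : ℝ) = Int.fract y - 1 := by push_cast; linarith
  rw [h1, h2, tent, tent, abs_of_nonneg hf0, abs_of_nonpos (by linarith : Int.fract y - 1 ≤ 0),
    max_eq_right (by linarith), max_eq_right (by linarith)]
  ring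

variable {ι : Type*} [Fintype ι] [DecidableEq ι]

/-- product of tent functions. -/
noncomputable def tentProd (y : ι → ℝ) : ℝ := ∏ i, tent (y i)

omit [DecidableEq ι] in
lemma tentProd_nonneg (y : ι → ℝ) : 0 ≤ tentProd y := prod_nonneg fun _ _ => tent_nonneg _

omit [DecidableEq ι] in
lemma tentProd_le_one (y : ι → ℝ) : tentProd y ≤ 1 :=
  prod_le_one (fun _ _ => tent_nonneg _) fun _ _ => tent_le_one _

omit [DecidableEq ι] in
lemma abs_lt_one_of_tentProd_ne_zero {y : ι → ℝ} (h : tentProd y ≠ 0) (i : ι) : |y i| < 1 :=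
  abs_lt_one_of_tent_ne_zero (prod_ne_zero_iff.mp h i (mem_univ i))

lemma hasSum_tentProd_aux {κ : Type*} [Fintype κ] (y : ι → ℝ) :
    HasSum (fun e : κ × (ι → ℤ) => tentProd (fun i => y i + e.2 i)) (Fintype.card κ) := by
  have h1 : ∑ e ∈ (univ : Finset κ) ×ˢ Fintype.piFinset (fun i => tentSupp (y i)),
      tentProd (fun i => y i + e.2 i) = (Fintype.card κ : ℝ) := by
    rw [sum_product]
    simp only
    rw [sum_const, card_univ, nsmul_eq_mul]
    unfold tentProd
    rw [← Finset.prod_univ_sum (fun i => tentSupp (y i)) (fun i (k : ℤ) => tent (y i + (k : ℝ)))]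
    simp [sum_tentSupp]
  rw [← h1]
  refine hasSum_sum_of_ne_finset_zero fun e he => ?_
  simp only [mem_product, mem_univ, true_and, Fintype.mem_piFinset, not_forall] at he
  obtain ⟨i, hi⟩ := he
  exact prod_eq_zero (mem_univ i) (tent_add_int_eq_zero _ hi)

omit [DecidableEq ι] in
lemma abs_tentProd_sub_le (y z : ι → ℝ) : |tentProd y - tentProd z| ≤ ∑ i, |y i - z i| := by
  classical
  unfold tentProd
  induction (univ : Finset ι) using Finset.induction_on with
  | empty => simp
  | insert a s ha ih =>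
    rw [prod_insert ha, prod_insert ha, sum_insert ha]
    have e : tent (y a) * ∏ i ∈ s, tent (y i) - tent (z a) * ∏ i ∈ s, tent (z i)
        = (tent (y a) - tent (z a)) * ∏ i ∈ s, tent (y i)
          + tent (z a) * (∏ i ∈ s, tent (y i) - ∏ i ∈ s, tent (z i)) := by ring
    rw [e]
    refine (abs_add_le _ _).trans (add_le_add ?_ ?_)
    · rw [abs_mul]
      have : |∏ i ∈ s, tent (y i)| ≤ 1 := by
        rw [abs_of_nonneg (prod_nonneg fun _ _ => tent_nonneg _)]
        exact prod_le_one (fun _ _ => tent_nonneg _) fun _ _ => tent_le_one _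
      calc _ ≤ |tent (y a) - tent (z a)| * 1 := by gcongr
        _ ≤ _ := by rw [mul_one]; exact tent_lipschitz _ _
    · rw [abs_mul, abs_of_nonneg (tent_nonneg _)]
      calc _ ≤ 1 * |∏ i ∈ s, tent (y i) - ∏ i ∈ s, tent (z i)| := by
            gcongr; exact tent_le_one _
        _ ≤ _ := by rw [one_mul]; exact ih

end Fermat.Agent.ClassL
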