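import Mathlib
import Fermat.Agent.ClassL.Tent

set_option autoImplicit false

open Finset NumberField NumberField.mixedEmbedding NumberField.InfinitePlace NumberField.Units
  NumberField.Units.dirichletUnitTheorem Module

open scoped Classical

namespace Fermat.Agent.ClassL

variable {K : Type*} [Field K] [NumberField K]

/-- vector of logs of absolute values. -/
noncomputable def lvec (x : mixedSpace K) : InfinitePlace K → ℝ :=
  fun w => Real.log (normAtPlace w x)

variable (K) in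
/-- the weighted sum of coordinates. -/
noncomputable def wsum : (InfinitePlace K → ℝ) →ₗ[ℝ] ℝ :=
  ∑ w, (mult w : ℝ) • LinearMap.proj w

lemma wsum_apply (v : InfinitePlace K → ℝ) : wsum K v = ∑ w, (mult w : ℝ) * v w := by
  simp [wsum]

variable (K) in
/-- linear version of `logMap`. -/
noncomputable def logMapLin : (InfinitePlace K → ℝ) →ₗ[ℝ] logSpace K :=
  LinearMap.pi fun w => (mult w.val : ℝ) • (LinearMap.proj w.val - (finrank ℚ K : ℝ)⁻¹ • wsum K)

lemma logMapLin_apply (v : InfinitePlace K → ℝ) (w : {w : InfinitePlace K // w ≠ w₀}) :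
    logMapLin K v w = mult w.val * (v w.val - (finrank ℚ K : ℝ)⁻¹ * wsum K v) := by
  simp [logMapLin]

lemma log_norm_eq {x : mixedSpace K} (hx : mixedEmbedding.norm x ≠ 0) :
    Real.log (mixedEmbedding.norm x) = wsum K (lvec x) := by
  rw [mixedEmbedding.norm_apply, Real.log_prod, wsum_apply]
  · simp [lvec, Real.log_pow]
  · intro w _
    exact pow_ne_zero _ (mixedEmbedding.norm_ne_zero_iff.mp hx w)

lemma logMap_eq {x : mixedSpace K} (hx : mixedEmbedding.norm x ≠ 0) :
    logMap x = logMapLin K (lvec x) := by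
  ext w
  rw [logMap_apply, logMapLin_apply, log_norm_eq hx, lvec, mul_comm (wsum K _)]

variable (K) in
/-- The `ℝ`-basis of the log space given by fundamental units. -/
noncomputable def ubasis : Basis (Fin (rank K)) ℝ (logSpace K) :=
  (basisUnitLattice K).ofZLatticeBasis ℝ

variable (K) in
/-- coordinates with respect to fundamental units. -/
noncomputable def crd : (InfinitePlace K → ℝ) →ₗ[ℝ] (Fin (rank K) → ℝ) :=
  (ubasis K).equivFun.toLinearMap ∘ₗ logMapLin K

/-- The cut off function. -/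
noncomputable def phi (x : mixedSpace K) : ℝ := tentProd (crd K (lvec x))

lemma phi_nonneg (x : mixedSpace K) : 0 ≤ phi x := tentProd_nonneg _

lemma phi_le_one (x : mixedSpace K) : phi x ≤ 1 := tentProd_le_one _

lemma exists_crd_bound : ∃ C : ℝ, 0 ≤ C ∧ ∀ v : InfinitePlace K → ℝ, ∀ i, |crd K v i| ≤ C * ‖v‖ := by
  refine ⟨‖(crd K).toContinuousLinearMap‖, norm_nonneg _, fun v i => ?_⟩
  have h := (crd K).toContinuousLinearMap.le_opNorm v
  have h2 := norm_le_pi_norm (crd K v) i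
  rw [Real.norm_eq_abs] at h2
  exact h2.trans h

lemma finrank_pos_real : (0 : ℝ) < finrank ℚ K := by exact_mod_cast finrank_pos

lemma exists_lvec_bound : ∃ M : ℝ, 0 ≤ M ∧ ∀ x : mixedSpace K, mixedEmbedding.norm x ≠ 0 →
    phi x ≠ 0 → ∀ w, |lvec x w - (finrank ℚ K : ℝ)⁻¹ * wsum K (lvec x)| ≤ M := by
  classical
  set M := ∑ i, ‖ubasis K i‖ with hM
  have hM0 : 0 ≤ M := sum_nonneg fun _ _ => norm_nonneg _
  refine ⟨(Fintype.card (InfinitePlace K)) * M, by positivity, fun x hx hphi w => ?_⟩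
  have h1 : ∀ w : {w : InfinitePlace K // w ≠ w₀}, |logMapLin K (lvec x) w| ≤ M := by
    intro w
    have h2 : logMapLin K (lvec x) = ∑ i, crd K (lvec x) i • ubasis K i := by
      conv_lhs => rw [← (ubasis K).sum_equivFun (logMapLin K (lvec x))]
      rfl
    have h3 : ‖logMapLin K (lvec x)‖ ≤ M := by
      rw [h2]
      refine (norm_sum_le _ _).trans (sum_le_sum fun i _ => ?_)
      rw [_root_.norm_smul, Real.norm_eq_abs]
      have := abs_lt_one_of_tentProd_ne_zero hphi i
      calc _ ≤ 1 * ‖ubasis K i‖ := by gcongr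
        _ = _ := one_mul _
    exact (norm_le_pi_norm (logMapLin K (lvec x)) w).trans h3
  have hcard : (1 : ℝ) ≤ Fintype.card (InfinitePlace K) := by
    exact_mod_cast Fintype.card_pos
  have hmult : ∀ w : InfinitePlace K, (1 : ℝ) ≤ mult w := fun w => by exact_mod_cast one_le_mult
  by_cases hw : w = w₀
  · have h4 : ∑ w, (mult w : ℝ) * (lvec x w - (finrank ℚ K : ℝ)⁻¹ * wsum K (lvec x)) = 0 := by
      simp_rw [mul_sub]
      rw [sum_sub_distrib, ← wsum_apply, ← sum_mul]
      have : (∑ w : InfinitePlace K, (mult w : ℝ)) = finrank ℚ K := by exact_mod_cast sum_mult_eq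
      rw [this, ← mul_assoc, mul_inv_cancel₀ finrank_pos_real.ne', one_mul, sub_self]
    rw [Fintype.sum_eq_add_sum_subtype_ne _ w₀] at h4
    have h5 : |(mult (w₀ : InfinitePlace K) : ℝ) *
        (lvec x w₀ - (finrank ℚ K : ℝ)⁻¹ * wsum K (lvec x))| ≤ Fintype.card (InfinitePlace K) * M := by
      rw [eq_neg_of_add_eq_zero_left h4, abs_neg]
      refine (abs_sum_le_sum_abs _ _).trans ?_
      refine (sum_le_card_nsmul univ _ M fun w _ => ?_).trans ?_
      · rw [← logMapLin_apply]; exact h1 w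
      · rw [nsmul_eq_mul]
        gcongr
        exact Fintype.card_subtype_le _
    rw [hw]
    refine le_trans ?_ h5
    rw [abs_mul, abs_of_nonneg (by positivity : (0 : ℝ) ≤ mult (w₀ : InfinitePlace K))]
    exact le_mul_of_one_le_left (abs_nonneg _) (hmult _)
  · have h6 := h1 ⟨w, hw⟩
    rw [logMapLin_apply, abs_mul, abs_of_nonneg (by positivity : (0 : ℝ) ≤ mult w)] at h6
    calc _ ≤ (mult w : ℝ) * |lvec x w - (finrank ℚ K : ℝ)⁻¹ * wsum K (lvec x)| :=
          le_mul_of_one_le_left (abs_nonneg _) (hmult _)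
      _ ≤ M := h6
      _ ≤ _ := le_mul_of_one_le_left hM0 hcard

lemma normAtPlace_le_norm (x : mixedSpace K) (w : InfinitePlace K) : normAtPlace w x ≤ ‖x‖ := by
  classical
  rw [norm_eq_sup'_normAtPlace]
  exact le_sup' (fun w => normAtPlace w x) (mem_univ w)

lemma norm_le_of_normAtPlace_le (x : mixedSpace K) {r : ℝ} (h : ∀ w, normAtPlace w x ≤ r) :
    ‖x‖ ≤ r := by
  classical
  rw [norm_eq_sup'_normAtPlace]
  exact sup'_le _ _ fun w _ => h w

/-- On the support of `phi`, all absolute values are comparable. -/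
lemma exists_comparable : ∃ c : ℝ, 0 < c ∧ ∀ x : mixedSpace K, mixedEmbedding.norm x ≠ 0 →
    phi x ≠ 0 → ∀ w, c * ‖x‖ ≤ normAtPlace w x := by
  obtain ⟨M, hM0, hM⟩ := exists_lvec_bound (K := K)
  refine ⟨Real.exp (-(2 * M)), Real.exp_pos _, fun x hx hphi w => ?_⟩
  have hpos : ∀ w, 0 < normAtPlace w x := fun w =>
    lt_of_le_of_ne (normAtPlace_nonneg _ _) (mixedEmbedding.norm_ne_zero_iff.mp hx w).symm
  have h1 : ∀ w', normAtPlace w' x ≤ Real.exp (2 * M) * normAtPlace w x := by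
    intro w'
    have a1 := abs_le.mp (hM x hx hphi w)
    have a2 := abs_le.mp (hM x hx hphi w')
    rw [← Real.log_le_log_iff (hpos w') (mul_pos (Real.exp_pos _) (hpos w)),
      Real.log_mul (Real.exp_pos _).ne' (hpos w).ne', Real.log_exp]
    change lvec x w' ≤ 2 * M + lvec x w
    linarith [a1.1, a1.2, a2.1, a2.2]
  have h2 := norm_le_of_normAtPlace_le x h1
  rw [Real.exp_neg, inv_mul_le_iff₀ (Real.exp_pos _)]
  exact h2

/-- The summand. -/
noncomputable def Fs (s : ℝ) (x : mixedSpace K) : ℝ := phi x * mixedEmbedding.norm x ^ (-s)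

lemma Fs_nonneg (s : ℝ) (x : mixedSpace K) : 0 ≤ Fs s x :=
  mul_nonneg (phi_nonneg _) (Real.rpow_nonneg (mixedEmbedding.norm_nonneg _) _)

lemma Fs_eq_zero_of_norm_eq_zero {s : ℝ} (hs : 1 ≤ s) {x : mixedSpace K}
    (hx : mixedEmbedding.norm x = 0) : Fs s x = 0 := by
  rw [Fs, hx, Real.zero_rpow (by linarith), mul_zero]

lemma Fs_eq_exp {s : ℝ} {x : mixedSpace K} (hx : mixedEmbedding.norm x ≠ 0) :
    Fs s x = phi x * Real.exp (-s * wsum K (lvec x)) := by
  have hpos : 0 < mixedEmbedding.norm x := lt_of_le_of_ne (mixedEmbedding.norm_nonneg _) hx.symm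
  rw [Fs, Real.rpow_def_of_pos hpos, log_norm_eq hx, mul_comm (wsum K _)]

lemma abs_wsum_le (v : InfinitePlace K → ℝ) : |wsum K v| ≤ finrank ℚ K * ‖v‖ := by
  rw [wsum_apply]
  refine (abs_sum_le_sum_abs _ _).trans ?_
  have : (finrank ℚ K : ℝ) = ∑ w : InfinitePlace K, (mult w : ℝ) := by
    exact_mod_cast sum_mult_eq.symm
  rw [this, sum_mul]
  refine sum_le_sum fun w _ => ?_
  rw [abs_mul, abs_of_nonneg (by positivity : (0 : ℝ) ≤ mult w)]
  gcongr
  exact norm_le_pi_norm v w

lemma abs_exp_sub_one_le (t : ℝ) : |Real.exp t - 1| ≤ |t| * Real.exp |t| := by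
  have h1 : Real.exp t - 1 ≤ |t| * Real.exp |t| := by
    have : 1 - t * 1 ≤ 1 + (-t) := by linarith
    have h := Real.add_one_le_exp (-t)
    have h' : Real.exp t - 1 ≤ t * Real.exp t := by
      have e : Real.exp t * Real.exp (-t) = 1 := by rw [← Real.exp_add]; simp
      nlinarith [Real.exp_pos t]
    refine h'.trans ?_
    have : Real.exp t ≤ Real.exp |t| := Real.exp_le_exp.mpr (le_abs_self t)
    calc t * Real.exp t ≤ |t| * Real.exp t := by gcongr; exact le_abs_self t
      _ ≤ _ := by gcongr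
  have h2 : -(|t| * Real.exp |t|) ≤ Real.exp t - 1 := by
    have h := Real.add_one_le_exp t
    have : |t| * 1 ≤ |t| * Real.exp |t| := by
      gcongr
      exact Real.one_le_exp (abs_nonneg _)
    have h3 := neg_abs_le t
    linarith
  exact abs_le.mpr ⟨h2, h1⟩

/-- Lipschitz estimate in the log variables. -/
lemma exists_lipschitz : ∃ C : ℝ, 0 ≤ C ∧ ∀ x z : mixedSpace K, mixedEmbedding.norm x ≠ 0 →
    mixedEmbedding.norm z ≠ 0 → ‖lvec z - lvec x‖ ≤ 1 → ∀ s : ℝ, 1 ≤ s → s ≤ 2 →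
    |Fs s z - Fs s x| ≤ C * ‖lvec z - lvec x‖ * mixedEmbedding.norm x ^ (-s) := by
  obtain ⟨C₁, hC₁, h₁⟩ := exists_crd_bound (K := K)
  set n : ℝ := (finrank ℚ K : ℝ) with hn
  have hn0 : 0 < n := finrank_pos_real
  refine ⟨Fintype.card (Fin (rank K)) * C₁ + 2 * n * Real.exp (2 * n), by positivity,
    fun x z hx hz hd s hs1 hs2 => ?_⟩
  set δ := ‖lvec z - lvec x‖ with hδ
  have hδ0 : 0 ≤ δ := norm_nonneg _
  have hpos : 0 < mixedEmbedding.norm x := lt_of_le_of_ne (mixedEmbedding.norm_nonneg _) hx.symm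
  have hE : mixedEmbedding.norm x ^ (-s) = Real.exp (-s * wsum K (lvec x)) := by
    rw [Real.rpow_def_of_pos hpos, log_norm_eq hx, mul_comm (wsum K _)]
  rw [Fs_eq_exp hx, Fs_eq_exp hz, hE]
  set E := Real.exp (-s * wsum K (lvec x)) with hEdef
  have hE0 : 0 < E := Real.exp_pos _
  set t := -s * (wsum K (lvec z - lvec x)) with ht
  have hEz : Real.exp (-s * wsum K (lvec z)) = E * Real.exp t := by
    rw [hEdef, ← Real.exp_add, ht, map_sub]
    congr 1
    ring
  have ht1 : |t| ≤ 2 * n * δ := by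
    rw [ht, abs_mul, abs_neg, abs_of_nonneg (by linarith : (0 : ℝ) ≤ s)]
    calc s * |wsum K (lvec z - lvec x)| ≤ 2 * (n * δ) := by
          gcongr
          exact abs_wsum_le _
      _ = _ := by ring
  have ht2 : |t| ≤ 2 * n := ht1.trans (by nlinarith)
  have hexp : |Real.exp t - 1| ≤ 2 * n * δ * Real.exp (2 * n) :=
    (abs_exp_sub_one_le t).trans (by gcongr)
  have hphi : |phi z - phi x| ≤ Fintype.card (Fin (rank K)) * C₁ * δ := by
    refine (abs_tentProd_sub_le _ _).trans ?_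
    calc _ ≤ ∑ i : Fin (rank K), C₁ * δ := by
          refine sum_le_sum fun i _ => ?_
          rw [← Pi.sub_apply, ← map_sub]
          exact h₁ _ i
      _ = _ := by rw [sum_const, card_univ, nsmul_eq_mul]; ring
  rw [hEz]
  have e : phi z * (E * Real.exp t) - phi x * E
      = E * (phi z * (Real.exp t - 1) + (phi z - phi x)) := by ring
  rw [e, abs_mul, abs_of_pos hE0]
  have h5 : |phi z * (Real.exp t - 1) + (phi z - phi x)| ≤
      2 * n * δ * Real.exp (2 * n) + Fintype.card (Fin (rank K)) * C₁ * δ := by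
    refine (abs_add_le _ _).trans (add_le_add ?_ hphi)
    rw [abs_mul, abs_of_nonneg (phi_nonneg z)]
    calc phi z * |Real.exp t - 1| ≤ 1 * |Real.exp t - 1| := by
          gcongr
          exact phi_le_one z
      _ ≤ _ := by rw [one_mul]; exact hexp
  calc E * |phi z * (Real.exp t - 1) + (phi z - phi x)|
      ≤ E * (2 * n * δ * Real.exp (2 * n) + Fintype.card (Fin (rank K)) * C₁ * δ) := by gcongr
    _ = _ := by ring

/-- Perturbation of logs. -/
lemma abs_log_sub_log_le {a b d : ℝ} (ha : 0 < a) (hd : d ≤ a / 2) (hab : |b - a| ≤ d) :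
    |Real.log b - Real.log a| ≤ 2 * d / a := by
  obtain ⟨h1, h2⟩ := abs_le.mp hab
  have hb : a / 2 ≤ b := by linarith
  have hb0 : 0 < b := by linarith
  have hd0 : 0 ≤ d := (abs_nonneg _).trans hab
  rw [abs_le]
  constructor
  · have : Real.log a - Real.log b ≤ a / b - 1 := by
      rw [← Real.log_div ha.ne' hb0.ne']
      exact Real.log_le_sub_one_of_pos (by positivity)
    have h3 : a / b - 1 ≤ 2 * d / a := by
      rw [div_sub_one hb0.ne', div_le_div_iff₀ hb0 ha]
      nlinarith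
    linarith
  · have : Real.log b - Real.log a ≤ b / a - 1 := by
      rw [← Real.log_div hb0.ne' ha.ne']
      exact Real.log_le_sub_one_of_pos (by positivity)
    have h3 : b / a - 1 ≤ 2 * d / a := by
      rw [div_sub_one ha.ne', div_le_div_iff_of_pos_right ha]
      linarith
    linarith

lemma abs_normAtPlace_add_sub_le (x y : mixedSpace K) (w : InfinitePlace K) :
    |normAtPlace w (x + y) - normAtPlace w x| ≤ ‖y‖ := by
  have h1 := normAtPlace_add_le w x y
  have h2 := normAtPlace_add_le w (x + y) (-y)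
  rw [add_neg_cancel_right, normAtPlace_neg] at h2
  have h3 := normAtPlace_le_norm y w
  rw [abs_le]
  constructor <;> linarith

/-- Main one-sided estimate. -/
lemma exists_onesided (K : Type*) [Field K] [NumberField K] (Y : ℝ) : ∃ R C : ℝ, 0 < R ∧ 0 ≤ C ∧
    ∀ y : mixedSpace K, ‖y‖ ≤ Y → ∀ x : mixedSpace K,
    mixedEmbedding.norm x ≠ 0 → phi x ≠ 0 → R ≤ ‖x‖ → ∀ s : ℝ, 1 ≤ s → s ≤ 2 →
    |Fs s (x + y) - Fs s x| ≤ C * ‖x‖ ^ (-(finrank ℚ K + 1) : ℝ) := by
  obtain ⟨c, hc0, hc⟩ := exists_comparable (K := K)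
  obtain ⟨C₁, hC₁, hlip⟩ := exists_lipschitz (K := K)
  set n := finrank ℚ K with hn
  set Z := max Y 0 with hZ
  have hZ0 : 0 ≤ Z := le_max_right _ _
  refine ⟨max 1 (max (2 * Z / c) (1 / c)), C₁ * (2 * Z / c) * c⁻¹ ^ n, by positivity, by positivity,
    fun y hy' x hx hphi hR s hs1 hs2 => ?_⟩
  have hy : ‖y‖ ≤ Z := hy'.trans (le_max_left _ _)
  have hx1 : 1 ≤ ‖x‖ := (le_max_left _ _).trans hR
  have hx2 : 2 * Z / c ≤ ‖x‖ := ((le_max_left _ _).trans (le_max_right _ _)).trans hR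
  have hx3 : 1 / c ≤ ‖x‖ := ((le_max_right _ _).trans (le_max_right _ _)).trans hR
  have hx0 : 0 < ‖x‖ := by linarith
  rw [div_le_iff₀ hc0] at hx2 hx3
  have hcx : 0 < c * ‖x‖ := by positivity
  have hw := hc x hx hphi
  have hδ : ‖lvec (x + y) - lvec x‖ ≤ 2 * Z / (c * ‖x‖) := by
    rw [pi_norm_le_iff_of_nonneg (by positivity)]
    intro w
    have hw' := hw w
    have h0 : 0 < normAtPlace w x := lt_of_lt_of_le hcx hw'
    have := abs_log_sub_log_le (a := normAtPlace w x) (b := normAtPlace w (x + y)) (d := Z)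
      h0 (by nlinarith) ((abs_normAtPlace_add_sub_le x y w).trans hy)
    rw [Pi.sub_apply, Real.norm_eq_abs]
    refine this.trans ?_
    gcongr
  have hδ1 : ‖lvec (x + y) - lvec x‖ ≤ 1 := by
    refine hδ.trans ?_
    rw [div_le_one hcx]
    linarith
  have hz : mixedEmbedding.norm (x + y) ≠ 0 := by
    rw [mixedEmbedding.norm_ne_zero_iff]
    intro w h0
    have h1 := abs_normAtPlace_add_sub_le x y w
    rw [h0, zero_sub, abs_neg, abs_of_nonneg (normAtPlace_nonneg _ _)] at h1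
    have := hw w
    nlinarith
  refine (hlip x (x + y) hx hz hδ1 s hs1 hs2).trans ?_
  have hN : (c * ‖x‖) ^ n ≤ mixedEmbedding.norm x := by
    rw [mixedEmbedding.norm_apply, hn, ← sum_mult_eq, ← prod_pow_eq_pow_sum]
    exact prod_le_prod (fun w _ => by positivity) fun w _ => by gcongr; exact hw w
  have hN1 : (1 : ℝ) ≤ (c * ‖x‖) ^ n := one_le_pow₀ (by linarith)
  have hNs : mixedEmbedding.norm x ^ (-s) ≤ ((c * ‖x‖) ^ n)⁻¹ := by
    have h1 : (1 : ℝ) ≤ mixedEmbedding.norm x := hN1.trans hN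
    calc mixedEmbedding.norm x ^ (-s) ≤ mixedEmbedding.norm x ^ (-1 : ℝ) :=
          Real.rpow_le_rpow_of_exponent_le h1 (by linarith)
      _ = (mixedEmbedding.norm x)⁻¹ := by rw [Real.rpow_neg_one]
      _ ≤ _ := by
          gcongr
  have hrp : 0 ≤ mixedEmbedding.norm x ^ (-s) :=
    Real.rpow_nonneg (mixedEmbedding.norm_nonneg _) _
  calc C₁ * ‖lvec (x + y) - lvec x‖ * mixedEmbedding.norm x ^ (-s)
      ≤ C₁ * (2 * Z / (c * ‖x‖)) * ((c * ‖x‖) ^ n)⁻¹ := by gcongr
    _ = _ := by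
      have : ‖x‖ ^ (-((n : ℝ) + 1)) = (‖x‖ ^ (n + 1))⁻¹ := by
        rw [Real.rpow_neg hx0.le]
        congr 1
        exact_mod_cast Real.rpow_natCast ‖x‖ (n + 1)
      rw [this, mul_pow, inv_pow, pow_succ]
      field_simp

end Fermat.Agent.ClassL
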