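import Mathlib
import Fermat.Agent.ClassL.Cone

set_option autoImplicit false
set_option linter.unusedSectionVars false

open Finset NumberField NumberField.mixedEmbedding NumberField.InfinitePlace NumberField.Units
  NumberField.Units.dirichletUnitTheorem Module

open scoped Classical

namespace Fermat.Agent.ClassL

variable {K : Type*} [Field K] [NumberField K]

/-- embedding of the ring of integers. -/
noncomputable def emb (x : 𝓞 K) : mixedSpace K := mixedEmbedding K (x : K)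

lemma emb_add (x y : 𝓞 K) : emb (x + y) = emb x + emb y := by simp [emb]

lemma emb_neg (x : 𝓞 K) : emb (-x) = -emb x := by simp [emb]

lemma emb_injective : Function.Injective (emb : 𝓞 K → mixedSpace K) :=
  (mixedEmbedding_injective K).comp RingOfIntegers.coe_injective

lemma emb_zero : emb (0 : 𝓞 K) = 0 := by simp [emb]

lemma norm_emb_eq (x : 𝓞 K) :
    mixedEmbedding.norm (emb x) = (Ideal.absNorm (Ideal.span {x}) : ℝ) := by
  rw [emb, norm_eq_norm, Ideal.absNorm_span_singleton, Nat.cast_natAbs, ← Rat.cast_intCast,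
    Int.cast_abs, Algebra.coe_norm_int]

lemma norm_emb_pos {x : 𝓞 K} (hx : x ≠ 0) : 0 < Ideal.absNorm (Ideal.span {x}) := by
  rw [Nat.pos_iff_ne_zero, ne_eq, Ideal.absNorm_eq_zero_iff, Ideal.span_singleton_eq_bot]
  exact hx

lemma one_le_norm_emb {x : 𝓞 K} (hx : x ≠ 0) : 1 ≤ mixedEmbedding.norm (emb x) := by
  rw [norm_emb_eq]
  exact_mod_cast norm_emb_pos hx

lemma norm_emb_ne_zero {x : 𝓞 K} (hx : x ≠ 0) : mixedEmbedding.norm (emb x) ≠ 0 :=
  (lt_of_lt_of_le one_pos (one_le_norm_emb hx)).ne'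

lemma emb_mem (x : 𝓞 K) : emb x ∈ mixedEmbedding.integerLattice K :=
  ⟨x, rfl⟩

/-- the embedding as a map to the lattice. -/
noncomputable def embL (x : 𝓞 K) : mixedEmbedding.integerLattice K := ⟨emb x, emb_mem x⟩

lemma embL_injective : Function.Injective (embL : 𝓞 K → _) := fun _ _ hxy =>
    emb_injective (congrArg Subtype.val hxy)

lemma norm_embL (x : 𝓞 K) : ‖embL x‖ = ‖emb x‖ := Submodule.coe_norm _

lemma finrank_integerLattice : finrank ℤ (mixedEmbedding.integerLattice K) = finrank ℚ K := by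
  rw [ZLattice.rank ℝ (mixedEmbedding.integerLattice K)]
  exact (mixedEmbedding.finrank K)

lemma summable_lattice {r : ℝ} (hr : r < -(finrank ℚ K : ℝ)) :
    Summable fun z : (mixedEmbedding.integerLattice K) ↦ ‖z‖ ^ r := by
  apply ZLattice.summable_norm_rpow
  rw [finrank_integerLattice]
  exact hr

lemma summable_emb_norm_rpow {r : ℝ} (hr : r < -(finrank ℚ K : ℝ)) :
    Summable fun x : 𝓞 K => ‖emb x‖ ^ r := by
  have h := (summable_lattice hr).comp_injective (embL_injective (K := K))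
  simp only [Function.comp_def, norm_embL] at h
  exact h

lemma emb_norm_pos {x : 𝓞 K} (hx : x ≠ 0) : 0 < ‖emb x‖ := by
  rw [norm_pos_iff]
  intro h
  exact hx (emb_injective (h.trans emb_zero.symm))

variable (K) in
lemma finite_emb_lt (R : ℝ) : {x : 𝓞 K | ‖emb x‖ < R}.Finite := by
  rcases le_or_gt R 0 with hR | hR
  · convert Set.finite_empty
    ext x
    simp only [Set.mem_ofPred_eq, Set.mem_empty_iff_false, iff_false, not_lt]
    exact hR.trans (norm_nonneg _)
  · set r : ℝ := -(finrank ℚ K : ℝ) - 1 with hr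
    have hsum := summable_emb_norm_rpow (K := K) (r := r) (by linarith)
    have h1 := hsum.tendsto_cofinite_zero
    have h2 : ∀ᶠ x : 𝓞 K in Filter.cofinite, ‖emb x‖ ^ r < R ^ r :=
      h1.eventually_lt_const (by positivity)
    rw [Filter.eventually_cofinite] at h2
    refine (h2.union (Set.finite_singleton 0)).subset fun x hx => ?_
    by_cases hx0 : x = 0
    · right; exact hx0
    · left
      simp only [Set.mem_ofPred_eq, not_lt] at hx ⊢
      have hn : (0 : ℝ) < finrank ℚ K := finrank_pos_real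
      exact Real.rpow_le_rpow_of_nonpos (emb_norm_pos hx0) hx.le (by linarith)

/-- The weight function on integers. -/
noncomputable def G (s : ℝ) (x : 𝓞 K) : ℝ := Fs s (emb x)

lemma G_nonneg (s : ℝ) (x : 𝓞 K) : 0 ≤ G s x := Fs_nonneg _ _

lemma G_zero {s : ℝ} (hs : 1 ≤ s) : G s (0 : 𝓞 K) = 0 :=
  Fs_eq_zero_of_norm_eq_zero hs (by rw [emb_zero, map_zero])

lemma G_le_one {s : ℝ} (hs : 1 ≤ s) (x : 𝓞 K) : G s x ≤ 1 := by
  by_cases hx : x = 0
  · rw [hx, G_zero hs]; exact zero_le_one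
  · rw [G, Fs]
    have h1 := one_le_norm_emb hx
    have h2 : mixedEmbedding.norm (emb x) ^ (-s) ≤ 1 :=
      Real.rpow_le_one_of_one_le_of_nonpos h1 (by linarith)
    exact mul_le_one₀ (phi_le_one _) (Real.rpow_nonneg (mixedEmbedding.norm_nonneg _) _) h2

variable (K) in
lemma exists_G_le : ∃ c : ℝ, 0 < c ∧ ∀ s : ℝ, 1 ≤ s → ∀ x : 𝓞 K, x ≠ 0 →
    G s x ≤ (c * ‖emb x‖) ^ (-(finrank ℚ K : ℝ) * s) := by
  obtain ⟨c, hc0, hc⟩ := exists_comparable (K := K)
  refine ⟨c, hc0, fun s hs x hx => ?_⟩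
  have hpos := emb_norm_pos hx
  by_cases hphi : phi (emb x) = 0
  · rw [G, Fs, hphi, zero_mul]
    positivity
  · have hw := hc _ (norm_emb_ne_zero hx) hphi
    have hcx : 0 < c * ‖emb x‖ := by positivity
    have hN : (c * ‖emb x‖) ^ (finrank ℚ K) ≤ mixedEmbedding.norm (emb x) := by
      rw [mixedEmbedding.norm_apply, ← sum_mult_eq, ← prod_pow_eq_pow_sum]
      exact prod_le_prod (fun w _ => by positivity) fun w _ => by gcongr; exact hw w
    rw [G, Fs]
    calc phi (emb x) * mixedEmbedding.norm (emb x) ^ (-s)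
        ≤ 1 * ((c * ‖emb x‖) ^ (finrank ℚ K)) ^ (-s) :=
          mul_le_mul (phi_le_one _)
            (Real.rpow_le_rpow_of_nonpos (by positivity) hN (by linarith))
            (Real.rpow_nonneg (mixedEmbedding.norm_nonneg _) _) zero_le_one
      _ = _ := by
          rw [one_mul, ← Real.rpow_natCast, ← Real.rpow_mul hcx.le]
          congr 1
          ring

lemma summable_G {s : ℝ} (hs : 1 < s) : Summable (G s : 𝓞 K → ℝ) := by
  obtain ⟨c, hc0, hc⟩ := exists_G_le K
  have hn : (0 : ℝ) < finrank ℚ K := finrank_pos_real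
  have h1 : Summable fun x : 𝓞 K => c ^ (-(finrank ℚ K : ℝ) * s) * ‖emb x‖ ^ (-(finrank ℚ K : ℝ) * s) :=
    (summable_emb_norm_rpow (by nlinarith)).mul_left _
  refine Summable.of_nonneg_of_le (G_nonneg s) (fun x => ?_) h1
  by_cases hx : x = 0
  · rw [hx, G_zero hs.le]
    positivity
  · rw [← Real.mul_rpow hc0.le (norm_nonneg _)]
    exact hc s hs.le x hx

/-- bounding function -/
noncomputable def Hb (R C : ℝ) (x : 𝓞 K) : ℝ :=
  C * ‖emb x‖ ^ (-(finrank ℚ K + 1) : ℝ) + (if ‖emb x‖ < R then 1 else 0)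

lemma Hb_nonneg {R C : ℝ} (hC : 0 ≤ C) (x : 𝓞 K) : 0 ≤ Hb R C x := by
  unfold Hb
  have : (0 : ℝ) ≤ if ‖emb x‖ < R then 1 else 0 := by split_ifs <;> norm_num
  positivity

variable (K) in
lemma summable_Hb (R C : ℝ) : Summable (Hb R C : 𝓞 K → ℝ) := by
  refine Summable.add ((summable_emb_norm_rpow (by linarith)).mul_left C) ?_
  refine summable_of_ne_finset_zero (s := (finite_emb_lt K R).toFinset) fun x hx => ?_
  simp only [Set.Finite.mem_toFinset, Set.mem_ofPred_eq] at hx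
  simp [hx]

lemma exists_diff_le (y : 𝓞 K) : ∃ R C : ℝ, 0 ≤ C ∧ ∀ s : ℝ, 1 ≤ s → s ≤ 2 → ∀ x : 𝓞 K,
    |G s (x + y) - G s x| ≤ Hb R C x + Hb R C (x + y) := by
  obtain ⟨R, C, hR0, hC, h⟩ := exists_onesided K ‖emb y‖
  refine ⟨R, C, hC, fun s hs1 hs2 x => ?_⟩
  have hle1 : |G s (x + y) - G s x| ≤ 1 := by
    rw [abs_le]
    constructor <;> linarith [G_nonneg s x, G_nonneg s (x + y), G_le_one hs1 x,
      G_le_one hs1 (x + y)]
  have hnn := Hb_nonneg (R := R) hC x
  have hnn' := Hb_nonneg (R := R) hC (x + y)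
  by_cases h1 : ‖emb x‖ < R
  · have : 1 ≤ Hb R C x := by
      unfold Hb
      rw [if_pos h1]
      have : 0 ≤ C * ‖emb x‖ ^ (-(finrank ℚ K + 1) : ℝ) := by positivity
      linarith
    linarith
  by_cases h2 : ‖emb (x + y)‖ < R
  · have : 1 ≤ Hb R C (x + y) := by
      unfold Hb
      rw [if_pos h2]
      have : 0 ≤ C * ‖emb (x + y)‖ ^ (-(finrank ℚ K + 1) : ℝ) := by positivity
      linarith
    linarith
  have e1 : Hb R C x = C * ‖emb x‖ ^ (-(finrank ℚ K + 1) : ℝ) := by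
    unfold Hb; rw [if_neg h1, add_zero]
  have e2 : Hb R C (x + y) = C * ‖emb (x + y)‖ ^ (-(finrank ℚ K + 1) : ℝ) := by
    unfold Hb; rw [if_neg h2, add_zero]
  by_cases h3 : mixedEmbedding.norm (emb x) ≠ 0 ∧ phi (emb x) ≠ 0
  · have := h (emb y) le_rfl (emb x) h3.1 h3.2 (not_lt.mp h1) s hs1 hs2
    rw [← emb_add] at this
    change |G s (x + y) - G s x| ≤ _ at this
    rw [e1]
    linarith
  by_cases h4 : mixedEmbedding.norm (emb (x + y)) ≠ 0 ∧ phi (emb (x + y)) ≠ 0
  · have := h (-emb y) (by rw [norm_neg]) (emb (x + y)) h4.1 h4.2 (not_lt.mp h2) s hs1 hs2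
    rw [← emb_neg, ← emb_add, add_neg_cancel_right] at this
    change |G s x - G s (x + y)| ≤ _ at this
    rw [abs_sub_comm] at this
    rw [e2]
    linarith
  · have z1 : G s x = 0 := by
      rw [not_and_or, not_not, not_not] at h3
      rcases h3 with h3 | h3
      · exact Fs_eq_zero_of_norm_eq_zero hs1 h3
      · rw [G, Fs, h3, zero_mul]
    have z2 : G s (x + y) = 0 := by
      rw [not_and_or, not_not, not_not] at h4
      rcases h4 with h4 | h4
      · exact Fs_eq_zero_of_norm_eq_zero hs1 h4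
      · rw [G, Fs, h4, zero_mul]
    rw [z1, z2, sub_zero, abs_zero]
    linarith

lemma exists_tsum_diff_le (y : 𝓞 K) : ∃ C : ℝ, ∀ s : ℝ, 1 < s → s ≤ 2 →
    ∀ J : AddSubgroup (𝓞 K), |∑' x : J, G s ((x : 𝓞 K) + y) - ∑' x : J, G s (x : 𝓞 K)| ≤ C := by
  obtain ⟨R, C, hC, h⟩ := exists_diff_le y
  have hs1 := summable_Hb K R C
  have hs2 : Summable fun x : 𝓞 K => Hb R C (x + y) :=
    hs1.comp_injective (add_left_injective y)
  refine ⟨∑' x : 𝓞 K, (Hb R C x + Hb R C (x + y)), fun s h1 h2 J => ?_⟩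
  have hG := summable_G (K := K) h1
  have hG1 : Summable fun x : J => G s (x : 𝓞 K) := hG.comp_injective Subtype.val_injective
  have hG2 : Summable fun x : J => G s ((x : 𝓞 K) + y) :=
    hG.comp_injective ((add_left_injective y).comp Subtype.val_injective)
  have hsum : Summable fun x : J => Hb R C (x : 𝓞 K) + Hb R C ((x : 𝓞 K) + y) :=
    (hs1.add hs2).comp_injective Subtype.val_injective
  rw [← hG2.tsum_sub hG1]
  have habs : Summable fun x : J => |G s ((x : 𝓞 K) + y) - G s (x : 𝓞 K)| :=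
    Summable.of_nonneg_of_le (fun _ => abs_nonneg _) (fun x => h s h1.le h2 x) hsum
  calc |∑' x : J, (G s ((x : 𝓞 K) + y) - G s (x : 𝓞 K))|
      ≤ ∑' x : J, |G s ((x : 𝓞 K) + y) - G s (x : 𝓞 K)| := by
        simpa [Real.norm_eq_abs] using norm_tsum_le_tsum_norm (f := fun x : J =>
          G s ((x : 𝓞 K) + y) - G s (x : 𝓞 K)) (by simpa [Real.norm_eq_abs] using habs)
    _ ≤ ∑' x : J, (Hb R C (x : 𝓞 K) + Hb R C ((x : 𝓞 K) + y)) :=
        habs.tsum_le_tsum (fun x => h s h1.le h2 x) hsum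
    _ ≤ _ := (hs1.add hs2).tsum_subtype_le _ _ (fun x =>
        add_nonneg (Hb_nonneg hC _) (Hb_nonneg hC _))

lemma bijective_out_add (J : AddSubgroup (𝓞 K)) :
    Function.Bijective (fun e : (𝓞 K ⧸ J) × J => e.1.out + (e.2 : 𝓞 K)) := by
  constructor
  · rintro ⟨q, j⟩ ⟨q', j'⟩ h
    simp only at h
    have hq : q = q' := by
      have h1 := congrArg (QuotientAddGroup.mk (s := J)) h
      rw [QuotientAddGroup.mk_add, QuotientAddGroup.mk_add,
        (QuotientAddGroup.eq_zero_iff (j : 𝓞 K)).mpr j.2,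
        (QuotientAddGroup.eq_zero_iff (j' : 𝓞 K)).mpr j'.2, add_zero, add_zero,
        QuotientAddGroup.out_eq', QuotientAddGroup.out_eq'] at h1
      exact h1
    subst hq
    have := add_left_cancel h
    rw [Subtype.ext this]
  · intro x
    refine ⟨(QuotientAddGroup.mk x, ⟨-(Quotient.out (QuotientAddGroup.mk x : 𝓞 K ⧸ J)) + x, ?_⟩), ?_⟩
    · rw [← QuotientAddGroup.eq, QuotientAddGroup.out_eq']
    · simp

/-- Comparison of the sum over all integers and over an ideal. -/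
theorem exists_ideal_compare (J : Ideal (𝓞 K)) (hJ : J ≠ ⊥) : ∃ C : ℝ, ∀ s : ℝ, 1 < s → s ≤ 2 →
    |∑' x : 𝓞 K, G s x - Ideal.absNorm J * ∑' x : J, G s (x : 𝓞 K)| ≤ C := by
  have hfin : Finite (𝓞 K ⧸ J) := Ideal.finiteQuotientOfFreeOfNeBot J hJ
  let J' : AddSubgroup (𝓞 K) := J.toAddSubgroup
  have hfin' : Finite (𝓞 K ⧸ J') := hfin
  have : Fintype (𝓞 K ⧸ J') := Fintype.ofFinite _
  have hcard : (Fintype.card (𝓞 K ⧸ J') : ℝ) = Ideal.absNorm J := by
    rw [Ideal.absNorm_apply, Submodule.cardQuot_apply, ← Nat.card_eq_fintype_card]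
    rfl
  choose C hC using fun y : 𝓞 K => exists_tsum_diff_le y
  let e : (𝓞 K ⧸ J') × J' ≃ 𝓞 K := Equiv.ofBijective _ (bijective_out_add J')
  refine ⟨∑ q : 𝓞 K ⧸ J', C q.out, fun s h1 h2 => ?_⟩
  have hG := summable_G (K := K) h1
  have he : ∀ q j, e (q, j) = q.out + (j : 𝓞 K) := fun q j => rfl
  have h3 : ∑' x : 𝓞 K, G s x = ∑ q : 𝓞 K ⧸ J', ∑' j : J', G s ((j : 𝓞 K) + q.out) := by
    rw [← e.tsum_eq, Summable.tsum_prod]
    · rw [tsum_fintype]
      refine sum_congr rfl fun q _ => tsum_congr fun j => ?_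
      rw [he, add_comm]
    · exact hG.comp_injective e.injective
  have h4 : Ideal.absNorm J * ∑' x : J, G s (x : 𝓞 K)
      = ∑ q : 𝓞 K ⧸ J', ∑' j : J', G s (j : 𝓞 K) := by
    rw [sum_const, card_univ, nsmul_eq_mul, hcard]
    rfl
  rw [h3, h4, ← sum_sub_distrib]
  refine (abs_sum_le_sum_abs _ _).trans (sum_le_sum fun q _ => ?_)
  exact hC q.out s h1 h2 J'

end Fermat.Agent.ClassL
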