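import Mathlib
import Fermat.Agent.ClassL.LatticeSum

set_option autoImplicit false
set_option linter.unusedSectionVars false

open Finset NumberField NumberField.mixedEmbedding NumberField.InfinitePlace NumberField.Units
  NumberField.Units.dirichletUnitTheorem Module

open scoped Classical

namespace Fermat.Agent.ClassL

variable {K : Type*} [Field K] [NumberField K]

variable (K) in
/-- Dirichlet unit theorem as a bijection. -/
noncomputable def unitMap (ζe : torsion K × (Fin (rank K) → ℤ)) : (𝓞 K)ˣ :=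
  ζe.1 * ∏ i, (fundSystem K i) ^ (ζe.2 i)

lemma unitMap_bijective : Function.Bijective (unitMap K) := by
  constructor
  · intro a b hab
    obtain ⟨c, hc, huniq⟩ := exist_unique_eq_mul_prod K (unitMap K a)
    rw [huniq a rfl, huniq b hab]
  · intro x
    obtain ⟨c, hc, -⟩ := exist_unique_eq_mul_prod K x
    exact ⟨c, hc.symm⟩

lemma norm_emb_unit (u : (𝓞 K)ˣ) : mixedEmbedding.norm (emb (u : 𝓞 K)) = 1 := norm_unit u

lemma logMapLin_lvec_unit (u : (𝓞 K)ˣ) :
    logMapLin K (lvec (emb (u : 𝓞 K))) = logEmbedding K (Additive.ofMul u) := by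
  rw [← logMap_eq (by rw [norm_emb_unit]; exact one_ne_zero)]
  exact logMap_eq_logEmbedding u

lemma logEmbedding_unitMap (ζe : torsion K × (Fin (rank K) → ℤ)) :
    logEmbedding K (Additive.ofMul (unitMap K ζe)) = ∑ i, ζe.2 i • ubasis K i := by
  rw [unitMap, ofMul_mul, map_add, logEmbedding_eq_zero_iff.mpr ζe.1.2, zero_add, ofMul_prod,
    map_sum]
  refine sum_congr rfl fun i _ => ?_
  rw [ofMul_zpow, map_zsmul, logEmbedding_fundSystem, ubasis, Basis.ofZLatticeBasis_apply]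

lemma crd_unitMap (ζe : torsion K × (Fin (rank K) → ℤ)) (i : Fin (rank K)) :
    crd K (lvec (emb (unitMap K ζe : 𝓞 K))) i = ζe.2 i := by
  change (ubasis K).equivFun (logMapLin K (lvec (emb (unitMap K ζe : 𝓞 K)))) i = _
  rw [logMapLin_lvec_unit, logEmbedding_unitMap]
  simp only [← Int.cast_smul_eq_zsmul ℝ]
  rw [← Basis.equivFun_symm_apply, LinearEquiv.apply_symm_apply]

lemma lvec_mul {x y : 𝓞 K} (hx : x ≠ 0) (hy : y ≠ 0) :
    lvec (emb (x * y)) = lvec (emb x) + lvec (emb y) := by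
  ext w
  simp only [lvec, emb, Pi.add_apply, normAtPlace_apply, map_mul]
  rw [Real.log_mul]
  · simpa using hx
  · simpa using hy

lemma hasSum_phi_unit {x : 𝓞 K} (hx : x ≠ 0) :
    HasSum (fun u : (𝓞 K)ˣ => phi (emb ((u : 𝓞 K) * x))) (torsionOrder K) := by
  have : Fintype (torsion K) := Fintype.ofFinite _
  have h := hasSum_tentProd_aux (κ := torsion K) (crd K (lvec (emb x)))
  have hcard : (Fintype.card (torsion K) : ℝ) = torsionOrder K := by
    rw [torsionOrder, Nat.card_eq_fintype_card]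
  rw [hcard] at h
  let e : torsion K × (Fin (rank K) → ℤ) ≃ (𝓞 K)ˣ := Equiv.ofBijective _ unitMap_bijective
  rw [← e.hasSum_iff]
  convert h using 2 with ζe
  change phi (emb ((unitMap K ζe : 𝓞 K) * x)) = _
  rw [phi, lvec_mul (Units.ne_zero _) hx, map_add]
  congr 1
  ext i
  rw [Pi.add_apply, crd_unitMap, add_comm]

lemma norm_emb_mul_unit (u : (𝓞 K)ˣ) (x : 𝓞 K) :
    mixedEmbedding.norm (emb ((u : 𝓞 K) * x)) = mixedEmbedding.norm (emb x) := by
  have : emb ((u : 𝓞 K) * x) = emb (u : 𝓞 K) * emb x := by simp [emb]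
  rw [this, map_mul, norm_emb_unit, one_mul]

lemma hasSum_G_unit (s : ℝ) {x : 𝓞 K} (hx : x ≠ 0) :
    HasSum (fun u : (𝓞 K)ˣ => G s ((u : 𝓞 K) * x))
      (torsionOrder K * (Ideal.absNorm (Ideal.span {x}) : ℝ) ^ (-s)) := by
  have h := (hasSum_phi_unit hx).mul_right ((Ideal.absNorm (Ideal.span {x}) : ℝ) ^ (-s))
  have e : (fun u : (𝓞 K)ˣ => G s ((u : 𝓞 K) * x)) = fun u : (𝓞 K)ˣ =>
      phi (emb ((u : 𝓞 K) * x)) * ((Ideal.absNorm (Ideal.span {x}) : ℝ) ^ (-s)) := by
    funext u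
    rw [← norm_emb_eq, ← norm_emb_mul_unit u x]
    rfl
  rw [e]
  exact h

end Fermat.Agent.ClassL
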