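import Mathlib
import Fermat.Agent.ClassL.UnitSum

set_option autoImplicit false
set_option linter.unusedSectionVars false

open Finset NumberField NumberField.Units Module nonZeroDivisors

open scoped Classical

namespace Fermat.Agent.ClassL

variable {K : Type*} [Field K] [NumberField K]

/-- nonzero principal ideals divisible by `J`. -/
def PJ (J : (Ideal (𝓞 K))⁰) : Type _ :=
  {I : (Ideal (𝓞 K))⁰ // (J : Ideal (𝓞 K)) ∣ I ∧ Submodule.IsPrincipal (I : Ideal (𝓞 K))}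

/-- norm of an ideal to the `-s`. -/
noncomputable def nrm (s : ℝ) (I : (Ideal (𝓞 K))⁰) : ℝ := (Ideal.absNorm (I : Ideal (𝓞 K)) : ℝ) ^ (-s)

lemma nrm_pos (s : ℝ) (I : (Ideal (𝓞 K))⁰) : 0 < nrm s I :=
  Real.rpow_pos_of_pos (by exact_mod_cast Ideal.absNorm_pos_of_nonZeroDivisors I) _

lemma nrm_mul (s : ℝ) (I J : (Ideal (𝓞 K))⁰) : nrm s (I * J) = nrm s I * nrm s J := by
  unfold nrm
  rw [Submonoid.coe_mul, map_mul, Nat.cast_mul, Real.mul_rpow (by positivity) (by positivity)]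

/-- a generator. -/
noncomputable def gen {J : (Ideal (𝓞 K))⁰} (I : PJ J) : 𝓞 K :=
  (I.2.2.principal).choose

lemma span_gen {J : (Ideal (𝓞 K))⁰} (I : PJ J) : Ideal.span {gen I} = (I.1 : Ideal (𝓞 K)) :=
  (I.2.2.principal).choose_spec.symm

lemma gen_ne_zero {J : (Ideal (𝓞 K))⁰} (I : PJ J) : gen I ≠ 0 := by
  intro h
  have h1 := span_gen I
  rw [h, Ideal.span_singleton_eq_bot.mpr rfl] at h1
  exact nonZeroDivisors.coe_ne_zero I.1 h1.symm

lemma gen_mem {J : (Ideal (𝓞 K))⁰} (I : PJ J) : gen I ∈ (J : Ideal (𝓞 K)) := by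
  have h1 := Ideal.le_of_dvd I.2.1
  apply h1
  rw [← span_gen I]
  exact Ideal.mem_span_singleton_self _

/-- parametrisation of nonzero elements of `J`. -/
noncomputable def elt (J : (Ideal (𝓞 K))⁰) (Iu : PJ J × (𝓞 K)ˣ) :
    {x : 𝓞 K // x ∈ (J : Ideal (𝓞 K)) ∧ x ≠ 0} :=
  ⟨(Iu.2 : 𝓞 K) * gen Iu.1, Ideal.mul_mem_left _ _ (gen_mem _),
    mul_ne_zero (Units.ne_zero _) (gen_ne_zero _)⟩

lemma elt_bijective (J : (Ideal (𝓞 K))⁰) : Function.Bijective (elt J) := by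
  constructor
  · rintro ⟨I, u⟩ ⟨I', u'⟩ h
    have h1 : (u : 𝓞 K) * gen I = (u' : 𝓞 K) * gen I' := congrArg Subtype.val h
    have h2 : I = I' := by
      apply Subtype.ext
      apply Subtype.ext
      rw [← span_gen I, ← span_gen I', ← Ideal.span_singleton_mul_left_unit u.isUnit (gen I), h1,
        Ideal.span_singleton_mul_left_unit u'.isUnit]
    subst h2
    have := mul_right_cancel₀ (gen_ne_zero I) h1
    rw [Units.ext this]
  · rintro ⟨x, hxJ, hx0⟩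
    have hI0 : Ideal.span {x} ≠ ⊥ := by
      rwa [ne_eq, Ideal.span_singleton_eq_bot]
    let I : PJ J := ⟨⟨Ideal.span {x}, mem_nonZeroDivisors_of_ne_zero hI0⟩,
      Ideal.dvd_iff_le.mpr ((Ideal.span_singleton_le_iff_mem _).mpr hxJ), ⟨x, rfl⟩⟩
    have h1 : Ideal.span {gen I} = Ideal.span {x} := span_gen I
    rw [Ideal.span_singleton_eq_span_singleton] at h1
    obtain ⟨u, hu⟩ := h1
    refine ⟨(I, u), Subtype.ext ?_⟩
    change (u : 𝓞 K) * gen I = x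
    rw [mul_comm]
    exact hu

lemma hasSum_PJ_aux {s : ℝ} (hs : 1 < s) (J : (Ideal (𝓞 K))⁰) :
    HasSum (fun I : PJ J => torsionOrder K * nrm s I.1) (∑' x : (J : Ideal (𝓞 K)), G s (x : 𝓞 K)) := by
  have hG := summable_G (K := K) hs
  have h1 : ∑' x : (J : Ideal (𝓞 K)), G s (x : 𝓞 K)
      = ∑' x : {x : 𝓞 K // x ∈ (J : Ideal (𝓞 K)) ∧ x ≠ 0}, G s (x : 𝓞 K) := by
    have e1 := tsum_subtype ((J : Ideal (𝓞 K)) : Set (𝓞 K)) (G s)
    have e2 := tsum_subtype {x : 𝓞 K | x ∈ (J : Ideal (𝓞 K)) ∧ x ≠ 0} (G s)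
    refine e1.trans (Eq.trans ?_ e2.symm)
    refine tsum_congr fun x => ?_
    by_cases hx : x = 0
    · simp [Set.indicator, hx, G_zero hs.le]
    · simp [Set.indicator, hx]
  let e : PJ J × (𝓞 K)ˣ ≃ {x : 𝓞 K // x ∈ (J : Ideal (𝓞 K)) ∧ x ≠ 0} :=
    Equiv.ofBijective _ (elt_bijective J)
  have h2 : Summable fun Iu : PJ J × (𝓞 K)ˣ => G s ((e Iu : 𝓞 K)) :=
    hG.comp_injective (Subtype.val_injective.comp e.injective)
  have h3 : ∀ I : PJ J, HasSum (fun u : (𝓞 K)ˣ => G s ((e (I, u) : 𝓞 K)))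
      (torsionOrder K * nrm s I.1) := by
    intro I
    have := hasSum_G_unit s (gen_ne_zero I)
    rw [span_gen I] at this
    exact this
  have h4 := h2.hasSum.prod_fiberwise h3
  rw [h1, ← e.tsum_eq]
  exact h4

/-- ideals in a class. -/
abbrev IC (C : ClassGroup (𝓞 K)) : Type _ := {I : (Ideal (𝓞 K))⁰ // ClassGroup.mk0 I = C}

/-- the partial zeta function of an ideal class -/
noncomputable def Z (C : ClassGroup (𝓞 K)) (s : ℝ) : ℝ := ∑' I : IC C, nrm s I.1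

/-- ideals in the class `C` correspond to principal ideals divisible by `J`, if `[J] = C⁻¹`. -/
noncomputable def mulJ {C : ClassGroup (𝓞 K)} {J : (Ideal (𝓞 K))⁰} (hJ : ClassGroup.mk0 J = C⁻¹)
    (I : IC C) : PJ J :=
  ⟨J * I.1, ⟨(I.1 : Ideal (𝓞 K)), rfl⟩, by
    rw [← ClassGroup.mk0_eq_one_iff (SetLike.coe_mem (J * I.1))]
    change ClassGroup.mk0 (J * I.1) = 1
    rw [map_mul, hJ, I.2, inv_mul_cancel]⟩

lemma mulJ_bijective {C : ClassGroup (𝓞 K)} {J : (Ideal (𝓞 K))⁰}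
    (hJ : ClassGroup.mk0 J = C⁻¹) : Function.Bijective (mulJ hJ) := by
  constructor
  · intro I I' h
    have h1 : J * I.1 = J * I'.1 := congrArg (fun x : PJ J => x.1) h
    exact Subtype.ext (mul_left_cancel h1)
  · intro P
    obtain ⟨I, hI⟩ := P.2.1
    have hI0 : I ≠ 0 := by
      rintro rfl
      rw [mul_zero] at hI
      exact nonZeroDivisors.coe_ne_zero P.1 hI
    let I' : (Ideal (𝓞 K))⁰ := ⟨I, mem_nonZeroDivisors_of_ne_zero hI0⟩
    have h1 : P.1 = J * I' := Subtype.ext hI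
    have h2 : ClassGroup.mk0 P.1 = 1 := (ClassGroup.mk0_eq_one_iff (SetLike.coe_mem P.1)).mpr P.2.2
    rw [h1, map_mul, hJ, inv_mul_eq_one] at h2
    exact ⟨⟨I', h2.symm⟩, Subtype.ext h1.symm⟩

lemma hasSum_IC {s : ℝ} (hs : 1 < s) {C : ClassGroup (𝓞 K)} {J : (Ideal (𝓞 K))⁰}
    (hJ : ClassGroup.mk0 J = C⁻¹) :
    HasSum (fun I : IC C => (torsionOrder K * nrm s J) * nrm s I.1)
      (∑' x : (J : Ideal (𝓞 K)), G s (x : 𝓞 K)) := by
  have h := hasSum_PJ_aux hs J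
  let e : IC C ≃ PJ J := Equiv.ofBijective _ (mulJ_bijective hJ)
  rw [← e.hasSum_iff] at h
  have e1 : (fun I : IC C => (torsionOrder K * nrm s J) * nrm s I.1)
      = (fun I : PJ J => (torsionOrder K : ℝ) * nrm s I.1) ∘ e := by
    funext I
    change _ = (torsionOrder K : ℝ) * nrm s (J * I.1)
    rw [nrm_mul, mul_assoc]
  rw [e1]
  exact h

lemma torsionOrder_pos' : (0 : ℝ) < torsionOrder K := by exact_mod_cast torsionOrder_pos K

lemma summable_IC {s : ℝ} (hs : 1 < s) (C : ClassGroup (𝓞 K)) :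
    Summable fun I : IC C => nrm s I.1 := by
  obtain ⟨J, hJ⟩ := ClassGroup.mk0_surjective C⁻¹
  have h := (hasSum_IC hs hJ).summable
  rwa [summable_mul_left_iff] at h
  exact (mul_pos torsionOrder_pos' (nrm_pos s J)).ne'

lemma sum_J_eq {s : ℝ} (hs : 1 < s) {C : ClassGroup (𝓞 K)} {J : (Ideal (𝓞 K))⁰}
    (hJ : ClassGroup.mk0 J = C⁻¹) :
    ∑' x : (J : Ideal (𝓞 K)), G s (x : 𝓞 K) = torsionOrder K * nrm s J * Z C s := by
  rw [← (hasSum_IC hs hJ).tsum_eq, tsum_mul_left, Z]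

lemma summable_nrm {s : ℝ} (hs : 1 < s) : Summable fun I : (Ideal (𝓞 K))⁰ => nrm s I := by
  let e : (Σ C : ClassGroup (𝓞 K), IC C) ≃ (Ideal (𝓞 K))⁰ :=
    Equiv.sigmaFiberEquiv (fun I : (Ideal (𝓞 K))⁰ => ClassGroup.mk0 I)
  rw [← e.summable_iff]
  have h0 : ∀ x, 0 ≤ ((fun I : (Ideal (𝓞 K))⁰ => nrm s I) ∘ e) x := fun _ => (nrm_pos _ _).le
  rw [summable_sigma_of_nonneg h0]
  exact ⟨fun C => summable_IC hs C, (hasSum_fintype _).summable⟩

/-- Splitting a sum over ideals according to classes. -/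
lemma tsum_ideals_eq {s : ℝ} (hs : 1 < s) (f : ClassGroup (𝓞 K) → ℂ) :
    ∑' I : (Ideal (𝓞 K))⁰, f (ClassGroup.mk0 I) * (nrm s I : ℂ)
      = ∑ C : ClassGroup (𝓞 K), f C * (Z C s : ℂ) := by
  let e : (Σ C : ClassGroup (𝓞 K), IC C) ≃ (Ideal (𝓞 K))⁰ :=
    Equiv.sigmaFiberEquiv (fun I : (Ideal (𝓞 K))⁰ => ClassGroup.mk0 I)
  have hsum : Summable fun I : (Ideal (𝓞 K))⁰ => f (ClassGroup.mk0 I) * (nrm s I : ℂ) := by
    obtain ⟨M, hM⟩ : ∃ M : ℝ, ∀ C, ‖f C‖ ≤ M := by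
      refine ⟨∑ C, ‖f C‖, fun C => single_le_sum (fun _ _ => norm_nonneg _) (mem_univ C)⟩
    refine Summable.of_norm_bounded (g := fun I => M * nrm s I) ((summable_nrm hs).mul_left M)
      fun I => ?_
    rw [norm_mul, Complex.norm_real, Real.norm_eq_abs, abs_of_pos (nrm_pos s I)]
    exact mul_le_mul_of_nonneg_right (hM _) (nrm_pos s I).le
  have hsum' : Summable fun c => f (ClassGroup.mk0 (e c)) * (nrm s (e c) : ℂ) :=
    (e.summable_iff).mpr hsum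
  rw [← e.tsum_eq, Summable.tsum_sigma hsum', tsum_fintype]
  refine sum_congr rfl fun C _ => ?_
  rw [Z, Complex.ofReal_tsum, ← tsum_mul_left]
  refine tsum_congr fun I => ?_
  change f (ClassGroup.mk0 I.1) * _ = _
  rw [I.2]
  rfl

end Fermat.Agent.ClassL
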