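import Mathlib
import Fermat.Agent.ClassL.IdealSum

set_option autoImplicit false
set_option linter.unusedSectionVars false

open Finset NumberField NumberField.Units Module nonZeroDivisors Filter Topology

open scoped Classical

namespace Fermat.Agent.ClassL

variable {K : Type*} [Field K] [NumberField K]

variable (K) in
/-- the Dedekind zeta function as a sum over nonzero ideals. -/
noncomputable def zetaK (s : ℝ) : ℝ := ∑' I : (Ideal (𝓞 K))⁰, nrm s I

lemma Z_nonneg (C : ClassGroup (𝓞 K)) (s : ℝ) : 0 ≤ Z C s := tsum_nonneg fun _ => (nrm_pos _ _).le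

lemma zetaK_eq_sum {s : ℝ} (hs : 1 < s) : zetaK K s = ∑ C : ClassGroup (𝓞 K), Z C s := by
  have h := tsum_ideals_eq (K := K) hs (fun _ => 1)
  simp only [one_mul] at h
  rw [← Complex.ofReal_inj, zetaK, Complex.ofReal_tsum, h]
  push_cast
  rfl

lemma Z_le_zetaK {s : ℝ} (hs : 1 < s) (C : ClassGroup (𝓞 K)) : Z C s ≤ zetaK K s := by
  rw [zetaK_eq_sum hs]
  exact single_le_sum (f := fun C => Z C s) (fun C _ => Z_nonneg C s) (mem_univ C)

/-- comparison with Mathlib's Dedekind zeta function -/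
lemma ofReal_zetaK {s : ℝ} (hs : 1 < s) : ((zetaK K s : ℝ) : ℂ) = dedekindZeta K s := by
  have hfib : ∀ n : ℕ, Finite {I : (Ideal (𝓞 K))⁰ // Ideal.absNorm (I : Ideal (𝓞 K)) = n} := by
    intro n
    have := (Ideal.finite_setOfPred_absNorm_eq (S := 𝓞 K) n).to_subtype
    exact Finite.of_injective (fun I : {I : (Ideal (𝓞 K))⁰ // Ideal.absNorm (I : Ideal (𝓞 K)) = n} =>
      (⟨I.1.1, I.2⟩ : {I : Ideal (𝓞 K) | Ideal.absNorm I = n})) (fun I J h => by
        have h1 := congrArg (fun x => x.1) h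
        apply Subtype.ext; apply Subtype.ext; exact h1)
  let e : (Σ n : ℕ, {I : (Ideal (𝓞 K))⁰ // Ideal.absNorm (I : Ideal (𝓞 K)) = n}) ≃ (Ideal (𝓞 K))⁰ :=
    Equiv.sigmaFiberEquiv (fun I : (Ideal (𝓞 K))⁰ => Ideal.absNorm (I : Ideal (𝓞 K)))
  have hsum : Summable fun c => nrm s (e c) := (e.summable_iff).mpr (summable_nrm hs)
  rw [zetaK, ← e.tsum_eq, Summable.tsum_sigma hsum, Complex.ofReal_tsum, dedekindZeta, LSeries]
  refine tsum_congr fun n => ?_
  have h1 : ∀ c : {I : (Ideal (𝓞 K))⁰ // Ideal.absNorm (I : Ideal (𝓞 K)) = n},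
      nrm s (e ⟨n, c⟩) = (n : ℝ) ^ (-s) := by
    intro c
    change (Ideal.absNorm (c.1 : Ideal (𝓞 K)) : ℝ) ^ (-s) = _
    rw [c.2]
  have := hfib n
  have : Fintype {I : (Ideal (𝓞 K))⁰ // Ideal.absNorm (I : Ideal (𝓞 K)) = n} := Fintype.ofFinite _
  rw [tsum_congr h1, tsum_fintype, sum_const, card_univ, nsmul_eq_mul]
  rcases Nat.eq_zero_or_pos n with rfl | hn
  · rw [LSeries.term_zero, Nat.cast_zero, Real.zero_rpow (by linarith), mul_zero, Complex.ofReal_zero]
  · rw [LSeries.term_of_ne_zero hn.ne', Real.rpow_neg (Nat.cast_nonneg _), Complex.ofReal_mul,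
      Complex.ofReal_inv, Complex.ofReal_cpow (Nat.cast_nonneg _), div_eq_mul_inv]
    congr 1
    rw [← Nat.card_eq_fintype_card]
    have : Nat.card {I : (Ideal (𝓞 K))⁰ // Ideal.absNorm (I : Ideal (𝓞 K)) = n} =
        Nat.card {I : Ideal (𝓞 K) // Ideal.absNorm I = n} := by
      refine Nat.card_congr
        { toFun := fun I => ⟨I.1.1, I.2⟩
          invFun := fun I => ⟨⟨I.1, mem_nonZeroDivisors_of_ne_zero (by
            rintro h
            have := I.2
            rw [h, Ideal.zero_eq_bot, Ideal.absNorm_bot] at this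
            omega)⟩, I.2⟩
          left_inv := fun I => rfl
          right_inv := fun I => rfl }
    rw [this]
    simp

lemma tendsto_zetaK :
    Tendsto (fun s : ℝ => (s - 1) * zetaK K s) (𝓝[>] 1) (𝓝 (dedekindZeta_residue K)) := by
  have h := tendsto_sub_one_mul_dedekindZeta_nhdsGT K
  have h2 := (Complex.continuous_re.tendsto _).comp h
  rw [Complex.ofReal_re] at h2
  refine h2.congr' ?_
  filter_upwards [self_mem_nhdsWithin] with s hs
  have hs' : (1:ℝ) < s := hs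
  simp only [Function.comp_apply]
  rw [← ofReal_zetaK hs', ← Complex.ofReal_one, ← Complex.ofReal_sub, ← Complex.ofReal_mul,
    Complex.ofReal_re]

lemma exists_zetaK_le : ∃ C : ℝ, 0 < C ∧ ∀ᶠ s in 𝓝[>] (1 : ℝ), zetaK K s ≤ C / (s - 1) := by
  have hr := dedekindZeta_residue_pos K
  refine ⟨dedekindZeta_residue K + 1, by linarith, ?_⟩
  have h := (tendsto_zetaK (K := K)).eventually (gt_mem_nhds (show dedekindZeta_residue K <
    dedekindZeta_residue K + 1 by linarith))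
  filter_upwards [h, self_mem_nhdsWithin] with s hs hs1
  have hs' : (0:ℝ) < s - 1 := sub_pos.mpr hs1
  rw [le_div_iff₀ hs', mul_comm]
  exact hs.le

lemma eventually_le_two : ∀ᶠ s in 𝓝[>] (1 : ℝ), 1 < s ∧ s ≤ 2 := by
  filter_upwards [self_mem_nhdsWithin, mem_nhdsWithin_of_mem_nhds (Iic_mem_nhds one_lt_two)]
    with s h1 h2
  exact ⟨h1, h2⟩

/-- All partial zeta functions differ by a bounded function near `1`. -/
theorem exists_Z_sub_le (C : ClassGroup (𝓞 K)) :
    ∃ B : ℝ, ∀ᶠ s in 𝓝[>] (1 : ℝ), |Z C s - Z (1 : ClassGroup (𝓞 K)) s| ≤ B := by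
  obtain ⟨J, hJ⟩ := ClassGroup.mk0_surjective C⁻¹
  obtain ⟨B₁, hB₁⟩ := exists_ideal_compare (J : Ideal (𝓞 K)) (nonZeroDivisors.coe_ne_zero J)
  obtain ⟨B₂, hB₂, hz⟩ := exists_zetaK_le (K := K)
  set N : ℝ := (Ideal.absNorm (J : Ideal (𝓞 K)) : ℝ) with hN
  have hN1 : 1 ≤ N := by
    rw [hN]; exact_mod_cast Ideal.absNorm_pos_of_nonZeroDivisors J
  have hN0 : 0 < N := by linarith
  have ht := torsionOrder_pos' (K := K)
  refine ⟨B₁ / torsionOrder K + Real.log N * B₂, ?_⟩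
  filter_upwards [hz, eventually_le_two] with s hz hs
  have h1 : ∑' x : 𝓞 K, G s x = torsionOrder K * Z (1 : ClassGroup (𝓞 K)) s := by
    have h := sum_J_eq hs.1 (C := (1 : ClassGroup (𝓞 K))) (J := 1) (by simp)
    have e1 : nrm s (1 : (Ideal (𝓞 K))⁰) = 1 := by simp [nrm]
    rw [e1, mul_one] at h
    rw [← h]
    let e : 𝓞 K ≃ (((1 : (Ideal (𝓞 K))⁰) : Ideal (𝓞 K))) :=
      { toFun := fun x => ⟨x, by simp⟩
        invFun := fun x => x.1
        left_inv := fun x => rfl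
        right_inv := fun x => rfl }
    rw [← e.tsum_eq]
    rfl
  have h2 := sum_J_eq hs.1 hJ
  have h3 := hB₁ s hs.1 hs.2
  rw [h1, h2] at h3
  have h4 : N * nrm s J = N ^ (1 - s) := by
    rw [nrm, ← hN, sub_eq_add_neg, Real.rpow_add hN0, Real.rpow_one]
  have h5 : |Z (1 : ClassGroup (𝓞 K)) s - N ^ (1 - s) * Z C s| ≤ B₁ / torsionOrder K := by
    rw [le_div_iff₀ ht]
    have e0 : ∀ y : ℝ, |y| * (torsionOrder K : ℝ) = |y * torsionOrder K| := fun y => by
      rw [abs_mul, abs_of_pos ht]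
    rw [e0]
    have e1 : (Z (1 : ClassGroup (𝓞 K)) s - N ^ (1 - s) * Z C s) * (torsionOrder K : ℝ)
        = torsionOrder K * Z (1 : ClassGroup (𝓞 K)) s
          - N * (torsionOrder K * nrm s J * Z C s) := by
      rw [← h4]
      ring
    rw [e1]
    exact h3
  have h6 : |(1 - N ^ (1 - s)) * Z C s| ≤ Real.log N * B₂ := by
    have hs1 : 0 < s - 1 := by linarith [hs.1]
    have h7 : N ^ (1 - s) ≤ 1 := Real.rpow_le_one_of_one_le_of_nonpos hN1 (by linarith)
    have h8 : 1 - N ^ (1 - s) ≤ (s - 1) * Real.log N := by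
      rw [Real.rpow_def_of_pos hN0]
      have := Real.add_one_le_exp (Real.log N * (1 - s))
      nlinarith
    have h9 : Z C s ≤ B₂ / (s - 1) := (Z_le_zetaK hs.1 C).trans hz
    rw [abs_of_nonneg (mul_nonneg (by linarith) (Z_nonneg _ _))]
    calc (1 - N ^ (1 - s)) * Z C s ≤ ((s - 1) * Real.log N) * (B₂ / (s - 1)) :=
          mul_le_mul h8 h9 (Z_nonneg _ _) (mul_nonneg hs1.le (Real.log_nonneg hN1))
      _ = _ := by field_simp
  have e : Z C s - Z (1 : ClassGroup (𝓞 K)) s = (1 - N ^ (1 - s)) * Z C s - (Z (1 : ClassGroup (𝓞 K)) s - N ^ (1 - s) * Z C s) := by ring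
  rw [e]
  refine (abs_sub _ _).trans ?_
  linarith

/-- For a function on the class group of total sum zero, the `L`-series is bounded near `1`. -/
theorem exists_L_bound (f : ClassGroup (𝓞 K) → ℂ) (hf : ∑ C, f C = 0) :
    ∃ B : ℝ, ∀ᶠ s in 𝓝[>] (1 : ℝ),
      ‖∑' I : (Ideal (𝓞 K))⁰, f (ClassGroup.mk0 I) * (nrm s I : ℂ)‖ ≤ B := by
  choose B hB using fun C : ClassGroup (𝓞 K) => exists_Z_sub_le C
  refine ⟨∑ C, ‖f C‖ * B C, ?_⟩
  filter_upwards [eventually_all.mpr hB, self_mem_nhdsWithin] with s hs hs1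
  rw [tsum_ideals_eq hs1]
  have e : ∑ C, f C * (Z C s : ℂ) = ∑ C, f C * ((Z C s - Z (1 : ClassGroup (𝓞 K)) s : ℝ) : ℂ) := by
    have : ∑ C, f C * (Z (1 : ClassGroup (𝓞 K)) s : ℂ) = 0 := by rw [← sum_mul, hf, zero_mul]
    rw [← sub_zero (∑ C, f C * (Z C s : ℂ)), ← this, ← sum_sub_distrib]
    refine sum_congr rfl fun C _ => ?_
    push_cast
    ring
  rw [e]
  refine (norm_sum_le _ _).trans (sum_le_sum fun C _ => ?_)
  rw [norm_mul, Complex.norm_real, Real.norm_eq_abs]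
  exact mul_le_mul_of_nonneg_left (hs C) (norm_nonneg _)

end Fermat.Agent.ClassL
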