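import Mathlib
import Fermat.Agent.ClassL.Bounded

set_option autoImplicit false
set_option linter.unusedSectionVars false

open Finset NumberField Module nonZeroDivisors Filter Topology

open scoped Classical

namespace Fermat.Agent.ClassL

variable {K : Type*} [Field K] [NumberField K]

variable (K) in
/-- nonzero prime ideals, as elements of the monoid of nonzero ideals. -/
abbrev Pr : Type _ := {I : (Ideal (𝓞 K))⁰ // Prime (I : Ideal (𝓞 K))}

lemma pr_dvd_mul {P : Pr K} {I J : (Ideal (𝓞 K))⁰} : P.1 ∣ I * J ↔ P.1 ∣ I ∨ P.1 ∣ J := by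
  rw [nonZeroDivisors_dvd_iff_dvd_coe, nonZeroDivisors_dvd_iff_dvd_coe,
    nonZeroDivisors_dvd_iff_dvd_coe, Submonoid.coe_mul]
  exact P.2.dvd_mul

lemma pr_dvd_pr {P Q : Pr K} (h : P.1 ∣ Q.1) : P = Q := by
  rw [nonZeroDivisors_dvd_iff_dvd_coe] at h
  have h1 : Associated (P.1 : Ideal (𝓞 K)) (Q.1 : Ideal (𝓞 K)) :=
    P.2.associated_of_dvd Q.2 h
  rw [associated_iff_eq] at h1
  exact Subtype.ext (Subtype.ext h1)

lemma not_pr_dvd_one (P : Pr K) : ¬ P.1 ∣ 1 := by
  intro h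
  rw [nonZeroDivisors_dvd_iff_dvd_coe] at h
  exact P.2.not_isUnit (isUnit_of_dvd_one h)

lemma exists_pr_dvd {I : (Ideal (𝓞 K))⁰} (hI : I ≠ 1) : ∃ P : Pr K, P.1 ∣ I := by
  have h0 : (I : Ideal (𝓞 K)) ≠ 0 := nonZeroDivisors.coe_ne_zero I
  have h1 : ¬ IsUnit (I : Ideal (𝓞 K)) := by
    rw [Ideal.isUnit_iff]
    intro h
    exact hI (Subtype.ext (h.trans Ideal.one_eq_top.symm))
  obtain ⟨P, hP, hPI⟩ := WfDvdMonoid.exists_irreducible_factor h1 h0
  have hP' : Prime P := hP.prime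
  refine ⟨⟨⟨P, mem_nonZeroDivisors_of_ne_zero hP'.ne_zero⟩, hP'⟩, ?_⟩
  rw [nonZeroDivisors_dvd_iff_dvd_coe]
  exact hPI

/-- truncated sum -/
noncomputable def trunc (f : (Ideal (𝓞 K))⁰ →* ℂ) (T : Finset (Pr K)) (I : (Ideal (𝓞 K))⁰) : ℂ :=
  if ∀ P ∈ T, ¬ P.1 ∣ I then f I else 0

lemma norm_trunc_le (f : (Ideal (𝓞 K))⁰ →* ℂ) (T : Finset (Pr K)) (I : (Ideal (𝓞 K))⁰) :
    ‖trunc f T I‖ ≤ ‖f I‖ := by
  unfold trunc
  split_ifs
  · exact le_rfl
  · rw [norm_zero]; exact norm_nonneg _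

lemma summable_trunc {f : (Ideal (𝓞 K))⁰ →* ℂ} (hf : Summable fun I => ‖f I‖)
    (T : Finset (Pr K)) : Summable (trunc f T) :=
  Summable.of_norm_bounded hf (norm_trunc_le f T)

lemma trunc_mul {f : (Ideal (𝓞 K))⁰ →* ℂ} {T : Finset (Pr K)} {P : Pr K} (hP : P ∉ T)
    (J : (Ideal (𝓞 K))⁰) : trunc f T (P.1 * J) = f P.1 * trunc f T J := by
  unfold trunc
  have : (∀ Q ∈ T, ¬ Q.1 ∣ P.1 * J) ↔ (∀ Q ∈ T, ¬ Q.1 ∣ J) := by
    refine forall₂_congr fun Q hQ => ?_
    rw [pr_dvd_mul, not_or]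
    refine and_iff_right fun h => hP ?_
    rwa [← pr_dvd_pr h]
  simp only [this, map_mul, mul_ite, mul_zero]

lemma tsum_trunc_insert {f : (Ideal (𝓞 K))⁰ →* ℂ} (hf : Summable fun I => ‖f I‖)
    {T : Finset (Pr K)} {P : Pr K} (hP : P ∉ T) :
    ∑' I, trunc f (insert P T) I = (1 - f P.1) * ∑' I, trunc f T I := by
  have h1 : ∀ I, trunc f T I = trunc f (insert P T) I + (if P.1 ∣ I then trunc f T I else 0) := by
    intro I
    by_cases h : P.1 ∣ I
    · have : trunc f (insert P T) I = 0 := by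
        unfold trunc
        rw [if_neg]
        simp [h]
      rw [if_pos h, this, zero_add]
    · rw [if_neg h, add_zero]
      unfold trunc
      simp [h]
  have hs2 : Summable fun I => (if P.1 ∣ I then trunc f T I else 0) := by
    refine Summable.of_norm_bounded hf fun I => ?_
    split_ifs
    · exact norm_trunc_le f T I
    · rw [norm_zero]; exact norm_nonneg _
  have h2 : ∑' I, (if P.1 ∣ I then trunc f T I else 0) = f P.1 * ∑' I, trunc f T I := by
    have hinj : Function.Injective (fun J : (Ideal (𝓞 K))⁰ => P.1 * J) := mul_right_injective P.1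
    rw [← hinj.tsum_eq, ← tsum_mul_left]
    · refine tsum_congr fun J => ?_
      rw [if_pos (Dvd.intro _ rfl), trunc_mul hP]
    · intro I hI
      rw [Function.mem_support] at hI
      by_contra h
      apply hI
      rw [if_neg]
      rintro ⟨J, hJ⟩
      exact h ⟨J, hJ.symm⟩
  have h3 : ∑' I, trunc f T I = ∑' I, trunc f (insert P T) I + f P.1 * ∑' I, trunc f T I := by
    rw [← h2, ← (summable_trunc hf _).tsum_add hs2]
    exact tsum_congr h1
  linear_combination -h3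

lemma prod_mul_tsum {f : (Ideal (𝓞 K))⁰ →* ℂ} (hf : Summable fun I => ‖f I‖)
    (T : Finset (Pr K)) :
    (∏ P ∈ T, (1 - f P.1)) * ∑' I, f I = ∑' I, trunc f T I := by
  induction T using Finset.induction_on with
  | empty => simp [trunc]
  | insert P T hP ih =>
    rw [prod_insert hP, mul_assoc, ih, tsum_trunc_insert hf hP]

lemma tendsto_tsum_trunc {f : (Ideal (𝓞 K))⁰ →* ℂ} (hf : Summable fun I => ‖f I‖) :
    Tendsto (fun T : Finset (Pr K) => ∑' I, trunc f T I) atTop (𝓝 1) := by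
  have h1 : ∑' I : (Ideal (𝓞 K))⁰, (if I = 1 then (1 : ℂ) else 0) = 1 := by
    rw [tsum_eq_single 1]
    · simp
    · intro I hI
      simp [hI]
  rw [← h1]
  refine tendsto_tsum_of_dominated_convergence (bound := fun I => ‖f I‖) hf (fun I => ?_)
    (Eventually.of_forall fun T I => norm_trunc_le f T I)
  by_cases hI : I = 1
  · subst hI
    simp [trunc, not_pr_dvd_one]
  · obtain ⟨P, hP⟩ := exists_pr_dvd hI
    refine tendsto_const_nhds.congr' ?_
    filter_upwards [eventually_ge_atTop {P}] with T hT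
    rw [if_neg hI, trunc, if_neg]
    intro h
    exact h P (hT (mem_singleton_self P)) hP

/-- Euler product. -/
theorem tendsto_prod {f : (Ideal (𝓞 K))⁰ →* ℂ} (hf : Summable fun I => ‖f I‖) :
    Tendsto (fun T : Finset (Pr K) => (∏ P ∈ T, (1 - f P.1)) * ∑' I, f I) atTop (𝓝 1) := by
  simp_rw [prod_mul_tsum hf]
  exact tendsto_tsum_trunc hf

end Fermat.Agent.ClassL
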