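import Mathlib
import Fermat.Agent.ClassL.Euler

set_option autoImplicit false
set_option linter.unusedSectionVars false

open Finset NumberField Module nonZeroDivisors Filter Topology

open scoped Classical

namespace Fermat.Agent.ClassL

variable {K : Type*} [Field K] [NumberField K]

variable {p : ℕ} [hp : Fact p.Prime]

/-- the additive character of a class group character -/
noncomputable def chr (χ : ClassGroup (𝓞 K) →* Multiplicative (ZMod p)) (k : ZMod p) :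
    ClassGroup (𝓞 K) →* ℂ where
  toFun C := ZMod.stdAddChar (k * (χ C).toAdd)
  map_one' := by simp
  map_mul' C D := by
    rw [χ.map_mul, toAdd_mul, mul_add, AddChar.map_add_eq_mul]

lemma norm_chr (χ : ClassGroup (𝓞 K) →* Multiplicative (ZMod p)) (k : ZMod p)
    (C : ClassGroup (𝓞 K)) : ‖chr χ k C‖ = 1 :=
  AddChar.norm_apply ZMod.stdAddChar (k * (χ C).toAdd)

lemma sum_chr {χ : ClassGroup (𝓞 K) →* Multiplicative (ZMod p)} (hχ : χ ≠ 1) {k : ZMod p}
    (hk : k ≠ 0) : ∑ C, chr χ k C = 0 := by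
  refine sum_hom_units_eq_zero _ fun h => hχ ?_
  ext C
  have h1 : chr χ k C = 1 := by rw [h]; rfl
  have h2 : ZMod.stdAddChar (k * (χ C).toAdd) = ZMod.stdAddChar (0 : ZMod p) := by
    rw [AddChar.map_zero_eq_one]; exact h1
  have h3 := ZMod.injective_stdAddChar h2
  rw [mul_eq_zero, or_iff_right hk] at h3
  exact h3

/-- completely multiplicative function on ideals. -/
noncomputable def fk (χ : ClassGroup (𝓞 K) →* Multiplicative (ZMod p)) (s : ℝ) (k : ZMod p) :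
    (Ideal (𝓞 K))⁰ →* ℂ where
  toFun I := chr χ k (ClassGroup.mk0 I) * (nrm s I : ℂ)
  map_one' := by simp [nrm]
  map_mul' I J := by
    rw [map_mul, map_mul, nrm_mul, Complex.ofReal_mul]
    ring

lemma norm_fk (χ : ClassGroup (𝓞 K) →* Multiplicative (ZMod p)) (s : ℝ) (k : ZMod p)
    (I : (Ideal (𝓞 K))⁰) : ‖fk χ s k I‖ = nrm s I := by
  change ‖chr χ k (ClassGroup.mk0 I) * (nrm s I : ℂ)‖ = _
  rw [norm_mul, norm_chr, one_mul, Complex.norm_real, Real.norm_eq_abs, abs_of_pos (nrm_pos s I)]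

lemma summable_fk (χ : ClassGroup (𝓞 K) →* Multiplicative (ZMod p)) {s : ℝ} (hs : 1 < s)
    (k : ZMod p) : Summable fun I => ‖fk χ s k I‖ := by
  simp_rw [norm_fk]
  exact summable_nrm hs

/-- the L-series. -/
noncomputable def Lk (χ : ClassGroup (𝓞 K) →* Multiplicative (ZMod p)) (s : ℝ) (k : ZMod p) : ℂ :=
  ∑' I, fk χ s k I

lemma exists_Lk_bound {χ : ClassGroup (𝓞 K) →* Multiplicative (ZMod p)} (hχ : χ ≠ 1)
    {k : ZMod p} (hk : k ≠ 0) : ∃ B : ℝ, ∀ᶠ s in 𝓝[>] (1 : ℝ), ‖Lk χ s k‖ ≤ B :=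
  exists_L_bound (fun C => chr χ k C) (sum_chr hχ hk)

lemma norm_Lk_zero (χ : ClassGroup (𝓞 K) →* Multiplicative (ZMod p)) (s : ℝ) :
    ‖Lk χ s 0‖ = zetaK K s := by
  have h : Lk χ s 0 = ((zetaK K s : ℝ) : ℂ) := by
    rw [zetaK, Complex.ofReal_tsum]
    refine tsum_congr fun I => ?_
    change chr χ 0 (ClassGroup.mk0 I) * (nrm s I : ℂ) = _
    have : chr χ (0 : ZMod p) (ClassGroup.mk0 I) = 1 := by
      change ZMod.stdAddChar ((0 : ZMod p) * (χ (ClassGroup.mk0 I)).toAdd) = 1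
      rw [zero_mul, AddChar.map_zero_eq_one]
    rw [this, one_mul]
  rw [h, Complex.norm_real, Real.norm_eq_abs, abs_of_nonneg]
  exact tsum_nonneg fun _ => (nrm_pos _ _).le

lemma prod_one_sub_stdAddChar (x : ℂ) :
    ∏ j : ZMod p, (1 - ZMod.stdAddChar j * x) = 1 - x ^ p := by
  have hp0 : 0 < p := hp.out.pos
  have hprim : IsPrimitiveRoot (ZMod.stdAddChar (1 : ZMod p) : ℂ) p := by
    have h := Complex.isPrimitiveRoot_exp p hp0.ne'
    have e : (ZMod.stdAddChar (1 : ZMod p) : ℂ) = Complex.exp (2 * Real.pi * Complex.I / p) := by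
      have := ZMod.stdAddChar_coe (N := p) 1
      simpa using this
    rw [e]
    exact h
  have h1 := hprim.pow_sub_pow_eq_prod_sub_mul 1 x hp0
  rw [one_pow] at h1
  rw [h1]
  have h2 : Polynomial.nthRootsFinset p (1 : ℂ)
      = univ.image (fun j : ZMod p => (ZMod.stdAddChar j : ℂ)) := by
    symm
    apply eq_of_subset_of_card_le
    · intro z hz
      rw [mem_image] at hz
      obtain ⟨j, -, rfl⟩ := hz
      rw [Polynomial.mem_nthRootsFinset hp0, ← AddChar.map_nsmul_eq_pow]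
      simp
    · rw [hprim.card_nthRootsFinset, card_image_of_injective _ ZMod.injective_stdAddChar,
        card_univ, ZMod.card]
  rw [h2, prod_image (fun a _ b _ h => ZMod.injective_stdAddChar h)]

/-- bounding local factors. -/
lemma norm_local_le (χ : ClassGroup (𝓞 K) →* Multiplicative (ZMod p)) {s : ℝ} (hs : 1 < s)
    (P : (Ideal (𝓞 K))⁰) :
    ‖∏ k : ZMod p, (1 - fk χ s k P)‖ ≤
      if χ (ClassGroup.mk0 P) = 1 then Real.exp (-(p * nrm s P)) else 1 := by
  set x := nrm s P with hx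
  have hx0 : 0 < x := nrm_pos s P
  have hx1 : x ≤ 1 := Real.rpow_le_one_of_one_le_of_nonpos
    (by exact_mod_cast Ideal.absNorm_pos_of_nonZeroDivisors P) (by linarith)
  have hfk : ∀ k : ZMod p, fk χ s k P = ZMod.stdAddChar (k * (χ (ClassGroup.mk0 P)).toAdd) * (x : ℂ) :=
    fun k => rfl
  split_ifs with h
  · have h1 : ∀ k : ZMod p, (1 - fk χ s k P) = ((1 - x : ℝ) : ℂ) := by
      intro k
      rw [hfk, h]
      simp
    simp_rw [h1]
    rw [prod_const, card_univ, ZMod.card, norm_pow, Complex.norm_real, Real.norm_eq_abs,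
      abs_of_nonneg (by linarith)]
    have h2 : 1 - x ≤ Real.exp (-x) := by
      have := Real.add_one_le_exp (-x)
      linarith
    calc (1 - x) ^ p ≤ (Real.exp (-x)) ^ p := pow_le_pow_left₀ (by linarith) h2 p
      _ = _ := by rw [← Real.exp_nat_mul]; ring_nf
  · have hc : (χ (ClassGroup.mk0 P)).toAdd ≠ 0 := h
    have h1 : ∏ k : ZMod p, (1 - fk χ s k P) = ∏ j : ZMod p, (1 - ZMod.stdAddChar j * (x : ℂ)) := by
      simp_rw [hfk]
      exact Fintype.prod_equiv (Equiv.mulRight₀ _ hc) _ _ (fun k => rfl)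
    rw [h1, prod_one_sub_stdAddChar]
    have h2 : (1 - (x : ℂ) ^ p) = ((1 - x ^ p : ℝ) : ℂ) := by push_cast; rfl
    rw [h2, Complex.norm_real, Real.norm_eq_abs, abs_of_nonneg]
    · have : 0 ≤ x ^ p := by positivity
      linarith
    · have : x ^ p ≤ 1 := pow_le_one₀ hx0.le hx1
      linarith

/-- Key lower bound for the product of all the `L`-series. -/
lemma exp_le_prod_Lk (χ : ClassGroup (𝓞 K) →* Multiplicative (ZMod p)) {s : ℝ} (hs : 1 < s)
    (T₀ : Finset (Pr K)) (hT₀ : ∀ P ∈ T₀, χ (ClassGroup.mk0 P.1) = 1) :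
    Real.exp (p * ∑ P ∈ T₀, nrm s P.1) ≤ ∏ k : ZMod p, ‖Lk χ s k‖ := by
  have h1 : Tendsto (fun T : Finset (Pr K) =>
      ∏ k : ZMod p, ‖(∏ P ∈ T, (1 - fk χ s k P.1)) * Lk χ s k‖) atTop (𝓝 1) := by
    have : Tendsto (fun T : Finset (Pr K) =>
      ∏ k : ZMod p, ‖(∏ P ∈ T, (1 - fk χ s k P.1)) * Lk χ s k‖) atTop
        (𝓝 (∏ k : ZMod p, ‖(1 : ℂ)‖)) :=
      tendsto_finsetProd _ fun k _ => (tendsto_prod (summable_fk χ hs k)).norm
    simpa using this
  have h2 : ∀ T : Finset (Pr K), ∏ k : ZMod p, ‖(∏ P ∈ T, (1 - fk χ s k P.1)) * Lk χ s k‖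
      = (∏ P ∈ T, ‖∏ k : ZMod p, (1 - fk χ s k P.1)‖) * ∏ k : ZMod p, ‖Lk χ s k‖ := by
    intro T
    simp_rw [norm_mul, norm_prod]
    rw [prod_mul_distrib, Finset.prod_comm]
  set A := ∏ k : ZMod p, ‖Lk χ s k‖ with hA
  have hA0 : 0 ≤ A := prod_nonneg fun _ _ => norm_nonneg _
  have h3 : 1 ≤ Real.exp (-(p * ∑ P ∈ T₀, nrm s P.1)) * A := by
    refine le_of_tendsto h1 ?_
    filter_upwards [eventually_ge_atTop T₀] with T hT
    rw [h2]
    refine mul_le_mul_of_nonneg_right ?_ hA0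
    rw [← prod_sdiff hT]
    have h4 : ∏ P ∈ T \ T₀, ‖∏ k : ZMod p, (1 - fk χ s k P.1)‖ ≤ 1 := by
      refine prod_le_one (fun _ _ => norm_nonneg _) fun P _ => ?_
      refine (norm_local_le χ hs P.1).trans ?_
      split_ifs
      · rw [Real.exp_le_one_iff]
        have := nrm_pos s P.1
        have hpp : (0 : ℝ) ≤ p := Nat.cast_nonneg _
        nlinarith
      · exact le_rfl
    have h5 : ∏ P ∈ T₀, ‖∏ k : ZMod p, (1 - fk χ s k P.1)‖
        ≤ Real.exp (-(p * ∑ P ∈ T₀, nrm s P.1)) := by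
      rw [mul_sum, ← sum_neg_distrib, Real.exp_sum]
      refine prod_le_prod (fun _ _ => norm_nonneg _) fun P hP => ?_
      have := norm_local_le χ hs P.1
      rwa [if_pos (hT₀ P hP)] at this
    calc _ ≤ 1 * Real.exp (-(p * ∑ P ∈ T₀, nrm s P.1)) :=
          mul_le_mul h4 h5 (prod_nonneg fun _ _ => norm_nonneg _) zero_le_one
      _ = _ := one_mul _
  rw [Real.exp_neg] at h3
  have h6 := Real.exp_pos (p * ∑ P ∈ T₀, nrm s P.1)
  rwa [inv_mul_eq_div, one_le_div h6] at h3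

/-- **Upper density of primes in the kernel of a class group character of order `p`.** -/
theorem exists_kernel_bound {χ : ClassGroup (𝓞 K) →* Multiplicative (ZMod p)} (hχ : χ ≠ 1) :
    ∃ B : ℝ, ∀ᶠ s in 𝓝[>] (1 : ℝ), ∀ T : Finset (Pr K), (∀ P ∈ T, χ (ClassGroup.mk0 P.1) = 1) →
      p * ∑ P ∈ T, nrm s P.1 ≤ Real.log (1 / (s - 1)) + B := by
  obtain ⟨C, hC0, hC⟩ := exists_zetaK_le (K := K)
  have hB : ∀ k : {k : ZMod p // k ≠ 0}, ∃ B : ℝ, 1 ≤ B ∧ ∀ᶠ s in 𝓝[>] (1 : ℝ), ‖Lk χ s k.1‖ ≤ B := by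
    intro k
    obtain ⟨B, hB⟩ := exists_Lk_bound hχ k.2
    exact ⟨max B 1, le_max_right _ _, hB.mono fun s hs => hs.trans (le_max_left _ _)⟩
  choose B hB1 hB2 using hB
  set D := ∏ k : {k : ZMod p // k ≠ 0}, B k with hD
  have hD0 : 0 < D := prod_pos fun k _ => by linarith [hB1 k]
  refine ⟨Real.log (C * D), ?_⟩
  filter_upwards [hC, eventually_all.mpr hB2, self_mem_nhdsWithin] with s hs1 hs2 hs3 T hT
  have hs3' : (1 : ℝ) < s := hs3
  have hs4 : 0 < s - 1 := sub_pos.mpr hs3'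
  have h1 := exp_le_prod_Lk χ hs3' T hT
  have h2 : ∏ k : ZMod p, ‖Lk χ s k‖ ≤ (C / (s - 1)) * D := by
    rw [Fintype.prod_eq_mul_prod_subtype_ne _ (0 : ZMod p), norm_Lk_zero]
    refine mul_le_mul hs1 ?_ (prod_nonneg fun _ _ => norm_nonneg _) (by positivity)
    exact prod_le_prod (fun _ _ => norm_nonneg _) fun k _ => hs2 k
  have h3 := Real.log_le_log (Real.exp_pos _) (h1.trans h2)
  rw [Real.log_exp] at h3
  refine h3.trans (le_of_eq ?_)
  rw [← Real.log_mul (by positivity) (by positivity)]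
  congr 1
  field_simp

end Fermat.Agent.ClassL
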