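import Mathlib
import Fermat.Agent.ClassL.Density
import Fermat.Agent.Frob.DensityAnalytic

set_option autoImplicit false
set_option linter.unusedSectionVars false

open Finset NumberField Module nonZeroDivisors Filter Topology

open scoped Classical

namespace Fermat.Agent.ClassL

open Fermat.Agent.FrobDensity

variable {K : Type*} [Field K] [NumberField K]

variable {p : ℕ} [hp : Fact p.Prime]

/-- number of ideals of norm `n` in the kernel of `χ`. -/
noncomputable def kerCount (χ : ClassGroup (𝓞 K) →* Multiplicative (ZMod p)) (n : ℕ) : ℕ :=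
  Nat.card {I : (Ideal (𝓞 K))⁰ // Ideal.absNorm (I : Ideal (𝓞 K)) = n ∧ χ (ClassGroup.mk0 I) = 1}

/-- number of ideals of norm `n` not in the kernel of `χ`. -/
noncomputable def nonkerCount (χ : ClassGroup (𝓞 K) →* Multiplicative (ZMod p)) (n : ℕ) : ℕ :=
  Nat.card {I : (Ideal (𝓞 K))⁰ // Ideal.absNorm (I : Ideal (𝓞 K)) = n ∧ χ (ClassGroup.mk0 I) ≠ 1}

lemma finite_norm_eq (n : ℕ) :
    Finite {I : (Ideal (𝓞 K))⁰ // Ideal.absNorm (I : Ideal (𝓞 K)) = n} := by
  have := (Ideal.finite_setOfPred_absNorm_eq (S := 𝓞 K) n).to_subtype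
  exact Finite.of_injective (fun I : {I : (Ideal (𝓞 K))⁰ // Ideal.absNorm (I : Ideal (𝓞 K)) = n} =>
    (⟨I.1.1, I.2⟩ : {I : Ideal (𝓞 K) | Ideal.absNorm I = n})) (fun I J h => by
      have h1 := congrArg (fun x => x.1) h
      apply Subtype.ext; apply Subtype.ext; exact h1)

lemma idealCount_eq_card {n : ℕ} (hn : n ≠ 0) :
    idealCount K n = Nat.card {I : (Ideal (𝓞 K))⁰ // Ideal.absNorm (I : Ideal (𝓞 K)) = n} := by
  refine Nat.card_congr
    { toFun := fun I => ⟨⟨I.1, mem_nonZeroDivisors_of_ne_zero (by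
            rintro h
            have := I.2
            rw [h, Ideal.zero_eq_bot, Ideal.absNorm_bot] at this
            exact hn this.symm)⟩, I.2⟩
      invFun := fun I => ⟨I.1.1, I.2⟩
      left_inv := fun I => rfl
      right_inv := fun I => rfl }

lemma idealCount_eq_add (χ : ClassGroup (𝓞 K) →* Multiplicative (ZMod p)) {n : ℕ} (hn : n ≠ 0) :
    idealCount K n = kerCount χ n + nonkerCount χ n := by
  have := finite_norm_eq (K := K) n
  rw [idealCount_eq_card hn, kerCount, nonkerCount]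
  rw [← Nat.card_congr (Equiv.sumCompl
    (fun I : {I : (Ideal (𝓞 K))⁰ // Ideal.absNorm (I : Ideal (𝓞 K)) = n} =>
      χ (ClassGroup.mk0 I.1) = 1)), Nat.card_sum]
  congr 1
  · exact Nat.card_congr (Equiv.subtypeSubtypeEquivSubtypeInter _
      (fun I : (Ideal (𝓞 K))⁰ => χ (ClassGroup.mk0 I) = 1))
  · exact Nat.card_congr (Equiv.subtypeSubtypeEquivSubtypeInter _
      (fun I : (Ideal (𝓞 K))⁰ => ¬ χ (ClassGroup.mk0 I) = 1))

/-- prime ideals above a finite set of rational primes, of degree one, in the kernel -/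
lemma finite_pr (S : Finset Nat.Primes) (χ : ClassGroup (𝓞 K) →* Multiplicative (ZMod p)) :
    {P : Pr K | (∃ q ∈ S, Ideal.absNorm (P.1 : Ideal (𝓞 K)) = (q : ℕ)) ∧
      χ (ClassGroup.mk0 P.1) = 1}.Finite := by
  have h1 : {P : Pr K | (∃ q ∈ S, Ideal.absNorm (P.1 : Ideal (𝓞 K)) = (q : ℕ)) ∧
      χ (ClassGroup.mk0 P.1) = 1} ⊆ ⋃ q ∈ S, {P : Pr K | Ideal.absNorm (P.1 : Ideal (𝓞 K)) = (q : ℕ)} := by
    intro P hP
    obtain ⟨⟨q, hq, h⟩, -⟩ := hP
    exact Set.mem_biUnion hq h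
  refine Set.Finite.subset (Set.Finite.biUnion S.finite_toSet fun q _ => ?_) h1
  have := finite_norm_eq (K := K) (q : ℕ)
  rw [← Set.finite_coe_iff]
  exact Finite.of_injective (fun P : {P : Pr K | Ideal.absNorm (P.1 : Ideal (𝓞 K)) = (q : ℕ)} =>
    (⟨P.1.1, P.2⟩ : {I : (Ideal (𝓞 K))⁰ // Ideal.absNorm (I : Ideal (𝓞 K)) = (q : ℕ)}))
    (fun P Q h => by
      have h1 := congrArg (fun x => x.1) h
      exact Subtype.ext (Subtype.ext h1))

lemma prime_of_absNorm {I : (Ideal (𝓞 K))⁰} {q : ℕ} (hq : q.Prime)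
    (h : Ideal.absNorm (I : Ideal (𝓞 K)) = q) : Prime (I : Ideal (𝓞 K)) := by
  have h1 : (I : Ideal (𝓞 K)).IsPrime := Ideal.isPrime_of_irreducible_absNorm (by rw [h]; exact hq)
  exact Ideal.prime_of_isPrime (nonZeroDivisors.coe_ne_zero I) h1

lemma sum_image_primes (S : Finset Nat.Primes) (f : ℕ → ℝ) :
    ∑ n ∈ S.image (fun q : Nat.Primes => (q : ℕ)), f n = ∑ q ∈ S, f (q : ℕ) :=
  sum_image (g := fun q : Nat.Primes => (q : ℕ)) fun _ _ _ _ h => Nat.Primes.coe_nat_injective h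

lemma sum_finset_eq (S : Finset Nat.Primes) (χ : ClassGroup (𝓞 K) →* Multiplicative (ZMod p))
    (s : ℝ) :
    ∑ q ∈ S, (kerCount χ (q : ℕ) : ℝ) * (q : ℝ) ^ (-s)
      = ∑ P ∈ (finite_pr S χ).toFinset, nrm s P.1 := by
  set T := (finite_pr S χ).toFinset with hT
  have hmem : ∀ P : Pr K, P ∈ T ↔ (∃ q ∈ S, Ideal.absNorm (P.1 : Ideal (𝓞 K)) = (q : ℕ)) ∧
      χ (ClassGroup.mk0 P.1) = 1 := fun P => by
    rw [hT, Set.Finite.mem_toFinset]; rfl
  have h1 : ∀ q : Nat.Primes, q ∈ S →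
      (kerCount χ (q : ℕ) : ℝ) * (q : ℝ) ^ (-s)
        = ∑ P ∈ T with Ideal.absNorm (P.1 : Ideal (𝓞 K)) = (q : ℕ), nrm s P.1 := by
    intro q hq
    have h2 : ∀ P ∈ T.filter (fun P : Pr K => Ideal.absNorm (P.1 : Ideal (𝓞 K)) = (q : ℕ)),
        nrm s P.1 = (q : ℝ) ^ (-s) := by
      intro P hP
      rw [mem_filter] at hP
      rw [nrm, hP.2]
    rw [sum_congr rfl h2, sum_const, nsmul_eq_mul]
    congr 2
    rw [kerCount, ← Fintype.card_coe, ← Nat.card_eq_fintype_card]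
    refine Nat.card_congr
      { toFun := fun I => ⟨⟨I.1, prime_of_absNorm q.2 I.2.1⟩, by
          rw [mem_filter, hmem]
          exact ⟨⟨⟨q, hq, I.2.1⟩, I.2.2⟩, I.2.1⟩⟩
        invFun := fun P => ⟨P.1.1, by
          have h3 := P.2
          rw [mem_filter, hmem] at h3
          exact ⟨h3.2, h3.1.2⟩⟩
        left_inv := fun I => rfl
        right_inv := fun P => rfl }
  rw [sum_congr rfl h1]
  have h4 : ∀ P ∈ T, Ideal.absNorm (P.1 : Ideal (𝓞 K)) ∈ S.image (fun q : Nat.Primes => (q : ℕ)) := by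
    intro P hP
    rw [hmem] at hP
    obtain ⟨⟨q, hq, h⟩, -⟩ := hP
    rw [mem_image]
    exact ⟨q, hq, h.symm⟩
  rw [← sum_fiberwise_of_maps_to h4, sum_image_primes]

lemma kerCount_le {χ : ClassGroup (𝓞 K) →* Multiplicative (ZMod p)} {n : ℕ} (hn : n ≠ 0) :
    kerCount χ n ≤ idealCount K n := by
  rw [idealCount_eq_add χ hn]; omega

lemma nonkerCount_le {χ : ClassGroup (𝓞 K) →* Multiplicative (ZMod p)} {n : ℕ} (hn : n ≠ 0) :
    nonkerCount χ n ≤ idealCount K n := by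
  rw [idealCount_eq_add χ hn]; omega

lemma summable_kerCount (χ : ClassGroup (𝓞 K) →* Multiplicative (ZMod p)) {s : ℝ} (hs : 1 < s) :
    Summable fun q : Nat.Primes => (kerCount χ (q : ℕ) : ℝ) * (q : ℝ) ^ (-s) := by
  refine Summable.of_nonneg_of_le (fun q => by positivity) (fun q => ?_)
    (summable_zterm_primes (K := K) hs)
  rw [zterm]
  have : (kerCount χ (q : ℕ) : ℝ) ≤ idealCount K q := by exact_mod_cast kerCount_le q.2.ne_zero
  gcongr

lemma summable_nonkerCount (χ : ClassGroup (𝓞 K) →* Multiplicative (ZMod p)) {s : ℝ} (hs : 1 < s) :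
    Summable fun q : Nat.Primes => (nonkerCount χ (q : ℕ) : ℝ) * (q : ℝ) ^ (-s) := by
  refine Summable.of_nonneg_of_le (fun q => by positivity) (fun q => ?_)
    (summable_zterm_primes (K := K) hs)
  rw [zterm]
  have : (nonkerCount χ (q : ℕ) : ℝ) ≤ idealCount K q := by exact_mod_cast nonkerCount_le q.2.ne_zero
  gcongr

lemma exists_kerCount_bound {χ : ClassGroup (𝓞 K) →* Multiplicative (ZMod p)} (hχ : χ ≠ 1) :
    ∃ B : ℝ, ∀ᶠ s in 𝓝[>] (1 : ℝ),
      p * ∑' q : Nat.Primes, (kerCount χ (q : ℕ) : ℝ) * (q : ℝ) ^ (-s)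
        ≤ Real.log (1 / (s - 1)) + B := by
  obtain ⟨B, hB⟩ := exists_kernel_bound hχ
  refine ⟨B, ?_⟩
  filter_upwards [hB, self_mem_nhdsWithin] with s hs hs1
  have hs1' : (1 : ℝ) < s := hs1
  rw [← tsum_mul_left]
  refine ((summable_kerCount χ hs1').mul_left _).tsum_le_of_sum_le fun S => ?_
  rw [← mul_sum, sum_finset_eq]
  refine hs _ fun P hP => ?_
  rw [Set.Finite.mem_toFinset] at hP
  exact hP.2

/-- **Main density comparison**: there is no number field `M` such that every prime of degree one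
of `K` not in the kernel of `χ` contributes `p` primes of degree one of `M`. -/
theorem false_of_split (hp3 : 3 ≤ p) {χ : ClassGroup (𝓞 K) →* Multiplicative (ZMod p)}
    (hχ : χ ≠ 1) (M : Type*) [Field M] [NumberField M] (S : Finset ℕ)
    (h : ∀ q : ℕ, q.Prime → q ∉ S → p * nonkerCount χ q ≤ idealCount M q) : False := by
  obtain ⟨B₁, hB₁⟩ := exists_kerCount_bound hχ
  obtain ⟨B₂, hB₂⟩ := exists_bound K
  obtain ⟨B₃, hB₃⟩ := exists_bound M
  set D : ℝ := p * ∑ q ∈ S, (idealCount K q : ℝ) with hD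
  have hlog : Tendsto (fun s : ℝ => Real.log (1 / (s - 1))) (𝓝[>] 1) atTop := by
    have h1 : Tendsto (fun s : ℝ => s - 1) (𝓝[>] 1) (𝓝[>] 0) := by
      refine tendsto_nhdsWithin_iff.mpr ⟨?_, ?_⟩
      · have : Tendsto (fun s : ℝ => s - 1) (𝓝 1) (𝓝 (1 - 1)) := (continuous_sub_right 1).tendsto 1
        rw [sub_self] at this
        exact this.mono_left nhdsWithin_le_nhds
      · filter_upwards [self_mem_nhdsWithin] with s hs
        have hs' : (1 : ℝ) < s := hs
        exact sub_pos.mpr hs'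
    have h2 := (Real.tendsto_log_atTop.comp tendsto_inv_nhdsGT_zero).comp h1
    simpa [Function.comp_def, one_div] using h2
  have hev : ∀ᶠ s in 𝓝[>] (1 : ℝ), B₁ + D + B₃ + p * B₂ < Real.log (1 / (s - 1)) :=
    hlog.eventually_gt_atTop _
  obtain ⟨s, h1, h2, h3, h4, hs⟩ :=
    (hB₁.and (hB₂.and (hB₃.and (hev.and self_mem_nhdsWithin)))).exists
  have hs' : (1 : ℝ) < s := hs
  have hpos : ∀ q : Nat.Primes, (0 : ℝ) ≤ (q : ℝ) ^ (-s) := fun q => by positivity
  -- the non kernel part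
  have h5 : p * ∑' q : Nat.Primes, (nonkerCount χ (q : ℕ) : ℝ) * (q : ℝ) ^ (-s)
      ≤ ∑' q : Nat.Primes, zterm M s q + D := by
    have hterm : ∀ q : Nat.Primes, (p : ℝ) * ((nonkerCount χ (q : ℕ) : ℝ) * (q : ℝ) ^ (-s))
        ≤ zterm M s q + (if (q : ℕ) ∈ S then (p : ℝ) * idealCount K q else 0) := by
      intro q
      have hq0 := zterm_nonneg (K := M) s q
      by_cases hq : (q : ℕ) ∈ S
      · rw [if_pos hq]
        have h6 : (nonkerCount χ (q : ℕ) : ℝ) ≤ idealCount K q := by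
          exact_mod_cast nonkerCount_le q.2.ne_zero
        have h7 : (q : ℝ) ^ (-s) ≤ 1 := Real.rpow_le_one_of_one_le_of_nonpos
          (by exact_mod_cast q.2.one_lt.le) (by linarith)
        have : (p : ℝ) * ((nonkerCount χ (q : ℕ) : ℝ) * (q : ℝ) ^ (-s)) ≤ p * (idealCount K q * 1) := by
          gcongr
        linarith
      · rw [if_neg hq, add_zero, zterm]
        have h6 : (p : ℝ) * nonkerCount χ (q : ℕ) ≤ idealCount M q := by
          exact_mod_cast h q q.2 hq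
        calc (p : ℝ) * ((nonkerCount χ (q : ℕ) : ℝ) * (q : ℝ) ^ (-s))
            = ((p : ℝ) * nonkerCount χ (q : ℕ)) * (q : ℝ) ^ (-s) := by ring
          _ ≤ _ := by gcongr
    have hfin : Set.Finite {q : Nat.Primes | (q : ℕ) ∈ S} :=
      Set.Finite.preimage (Subtype.val_injective.injOn) S.finite_toSet
    have hsumS : Summable fun q : Nat.Primes => (if (q : ℕ) ∈ S then (p : ℝ) * idealCount K q else 0) := by
      refine summable_of_ne_finset_zero (s := hfin.toFinset) fun q hq => ?_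
      rw [Set.Finite.mem_toFinset] at hq
      exact if_neg hq
    rw [← tsum_mul_left]
    refine (((summable_nonkerCount χ hs').mul_left _).tsum_le_tsum hterm
      ((summable_zterm_primes hs').add hsumS)).trans ?_
    rw [(summable_zterm_primes hs').tsum_add hsumS]
    gcongr
    rw [hD, mul_sum]
    refine hsumS.tsum_le_of_sum_le fun F => ?_
    rw [← sum_filter]
    rw [← sum_image_primes (F.filter (fun q : Nat.Primes => (q : ℕ) ∈ S))
      (fun n => (p : ℝ) * idealCount K n)]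
    refine sum_le_sum_of_subset_of_nonneg ?_ fun _ _ _ => by positivity
    intro n hn
    rw [mem_image] at hn
    obtain ⟨q, hq, rfl⟩ := hn
    exact (mem_filter.mp hq).2
  have h6 : ∑' q : Nat.Primes, zterm K s q
      = ∑' q : Nat.Primes, (kerCount χ (q : ℕ) : ℝ) * (q : ℝ) ^ (-s)
        + ∑' q : Nat.Primes, (nonkerCount χ (q : ℕ) : ℝ) * (q : ℝ) ^ (-s) := by
    rw [← (summable_kerCount χ hs').tsum_add (summable_nonkerCount χ hs')]
    refine tsum_congr fun q => ?_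
    rw [zterm, idealCount_eq_add χ q.2.ne_zero]
    push_cast
    ring
  have h7 := abs_le.mp h2
  have h8 := abs_le.mp h3
  rw [h6] at h7
  have hp3' : (3 : ℝ) ≤ p := by exact_mod_cast hp3
  have hL0 : 0 < Real.log (1 / (s - 1)) ∨ Real.log (1 / (s - 1)) ≤ 0 := lt_or_ge _ _
  have h9 : (p : ℝ) * (Real.log (1 / (s - 1)) - B₂) ≤
      p * (∑' q : Nat.Primes, (kerCount χ (q : ℕ) : ℝ) * (q : ℝ) ^ (-s)
        + ∑' q : Nat.Primes, (nonkerCount χ (q : ℕ) : ℝ) * (q : ℝ) ^ (-s)) := by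
    gcongr
    linarith [h7.1]
  rw [mul_add] at h9
  have hB₁0 : 0 ≤ D := by positivity
  have h10 : (3 : ℝ) * Real.log (1 / (s - 1)) ≤ p * Real.log (1 / (s - 1)) ∨
      Real.log (1 / (s - 1)) < 0 := by
    rcases lt_or_ge (Real.log (1 / (s - 1))) 0 with h | h
    · exact Or.inr h
    · left; gcongr
  rcases h10 with h10 | h10
  · nlinarith [h8.2]
  · have hB₂0 : 0 ≤ B₂ := (abs_nonneg _).trans h2
    have hB₃0 : 0 ≤ B₃ := (abs_nonneg _).trans h3
    have hker0 : 0 ≤ ∑' q : Nat.Primes, (kerCount χ (q : ℕ) : ℝ) * (q : ℝ) ^ (-s) :=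
      tsum_nonneg fun q => by positivity
    have : (p : ℝ) * (∑' q : Nat.Primes, (kerCount χ (q : ℕ) : ℝ) * (q : ℝ) ^ (-s)) ≥ 0 := by positivity
    nlinarith [h8.2]

end Fermat.Agent.ClassL
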